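import Mathlib
import Fermat.Prelude.Def_GaloisRep_Adic
import Fermat.Prelude.Def_EllipticCurve_FrobeniusTrace
import Fermat.Prelude.Def_FLTPrelim_Ramification
import Fermat.Agent.S05.Inertia

/-!
# Program G / S31, package G/Unr : row (CYC-n) `gun_cyc_frob`, `gun_cyc_inertia`

A Frobenius element at `q` raises every root of unity of order prime to `q` to the `q`-th power, and
inertia at `q` fixes them.  Statements VERBATIM from `G/Unr/Spec/Cyc.lean` (origin/helper5 0711620).

Key point: `1 - η` is a unit of `A` (a place over `q`) for every `n`-th root of unity `η ≠ 1`,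
`q ∤ n` (`guny_valuation_one_sub`): `n = ∑_{i<n} (1 - η^i)` and `1 - η ∣ 1 - η^i`.
-/

set_option autoImplicit false

noncomputable section

namespace Fermat.Agent.G

open Polynomial IsLocalRing

local notation "Qb" => AlgebraicClosure ℚ
local notation "GQ" => (AlgebraicClosure ℚ ≃ₐ[ℚ] AlgebraicClosure ℚ)

/-- a root of unity has valuation one -/
theorem guny_valuation_eq_one {K : Type*} [Field K] (A : ValuationSubring K) {ζ : K} {n : ℕ}
    (hn : n ≠ 0) (h : ζ ^ n = 1) : A.valuation ζ = 1 := by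
  have h1 : A.valuation ζ ^ n = 1 := by rw [← map_pow, h, map_one]
  rcases lt_trichotomy (A.valuation ζ) 1 with hlt | heq | hgt
  · exact absurd h1 (ne_of_lt (pow_lt_one₀ zero_le hlt hn))
  · exact heq
  · exact absurd h1 (ne_of_gt (one_lt_pow₀ hgt hn))

/-- `v(1 - η ^ k) ≤ v(1 - η)` for integral `η` (`1 - η` divides `1 - η ^ k` in `A`) -/
theorem guny_valuation_one_sub_pow_le {K : Type*} [Field K] (A : ValuationSubring K) {η : K}
    (hη : η ∈ A) (k : ℕ) : A.valuation (1 - η ^ k) ≤ A.valuation (1 - η) := by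
  have h1 : 1 - η ^ k = (∑ i ∈ Finset.range k, η ^ i) * (1 - η) := by
    have := geom_sum_mul η k
    linear_combination this
  have h2 : (∑ i ∈ Finset.range k, η ^ i) ∈ A :=
    sum_mem fun i _ => pow_mem hη i
  rw [h1, map_mul]
  calc A.valuation (∑ i ∈ Finset.range k, η ^ i) * A.valuation (1 - η)
      ≤ 1 * A.valuation (1 - η) := by
        gcongr
        exact (A.valuation_le_one_iff _).2 h2
    _ = A.valuation (1 - η) := one_mul _

/-- if `A` lies over `q` and `q ∤ n`, then `1 - η` is a unit of `A` for every `n`-th root of unity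
`η ≠ 1` -/
theorem guny_valuation_one_sub {K : Type*} [Field K] {q : ℕ} (hq : q.Prime) {n : ℕ}
    (hn : ¬ q ∣ n) (A : ValuationSubring K) (hA : A.LiesOverPrime q) {η : K} (h1 : η ^ n = 1)
    (hne : η ≠ 1) : A.valuation (1 - η) = 1 := by
  have hn0 : n ≠ 0 := fun h => hn (h ▸ dvd_zero q)
  have hvη : A.valuation η = 1 := guny_valuation_eq_one A hn0 h1
  have hηA : η ∈ A := (A.valuation_le_one_iff η).1 hvη.le
  have hle : A.valuation (1 - η) ≤ 1 := by
    refine le_trans (A.valuation.map_sub _ _) ?_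
    rw [map_one, hvη, max_self]
  refine le_antisymm hle ?_
  -- `∑_{i<n} η^i = 0`
  have hsum : ∑ i ∈ Finset.range n, η ^ i = 0 := by
    have h2 := geom_sum_mul η n
    rw [h1, sub_self] at h2
    rcases mul_eq_zero.mp h2 with h3 | h3
    · exact h3
    · exact absurd (sub_eq_zero.mp h3) hne
  have hn' : (n : K) = ∑ i ∈ Finset.range n, (1 - η ^ i) := by
    rw [Finset.sum_sub_distrib, hsum, sub_zero, Finset.sum_const, Finset.card_range,
      nsmul_eq_mul, mul_one]
  have hvn : A.valuation ((n : ℤ) : K) = 1 := by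
    rw [Fermat.Agent.S05.valuation_intCast_eq_one_iff A hq hA]
    intro hdvd
    exact hn (by exact_mod_cast hdvd)
  rw [Int.cast_natCast, hn'] at hvn
  rw [← hvn]
  exact Valuation.map_sum_le _ (fun i _ => guny_valuation_one_sub_pow_le A hηA i)

/-- two `n`-th roots of unity (`q ∤ n`) which are congruent modulo a place over `q` are equal -/
theorem guny_root_eq_of_sub_mem {K : Type*} [Field K] {q : ℕ} (hq : q.Prime) {n : ℕ}
    (hn : ¬ q ∣ n) (A : ValuationSubring K) (hA : A.LiesOverPrime q)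
    {ζ ξ : K} (hζ : ζ ^ n = 1) (hξ : ξ ^ n = 1) (h : ξ - ζ ∈ A.nonunits) : ξ = ζ := by
  have hn0 : n ≠ 0 := fun h => hn (h ▸ dvd_zero q)
  by_contra hne
  have hζ0 : ζ ≠ 0 := fun h => by
    rw [h, zero_pow hn0] at hζ
    exact zero_ne_one hζ
  have hvζ : A.valuation ζ = 1 := guny_valuation_eq_one A hn0 hζ
  have hsub : A.valuation (ξ - ζ) < 1 := (ValuationSubring.mem_nonunits_iff (A := A)).1 h
  have hηp : (ξ / ζ) ^ n = 1 := by rw [div_pow, hξ, hζ, div_one]
  have hη1 : ξ / ζ ≠ 1 := fun h => hne ((div_eq_one_iff_eq hζ0).1 h)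
  have h1 := guny_valuation_one_sub hq hn A hA hηp hη1
  have h2 : A.valuation (1 - ξ / ζ) = A.valuation (ξ - ζ) := by
    rw [Valuation.map_sub_swap, show ξ / ζ - 1 = (ξ - ζ) / ζ by field_simp, map_div₀, hvζ,
      div_one]
  rw [h2] at h1
  rw [h1] at hsub
  exact lt_irrefl _ hsub

/-- the Frobenius congruence on the valuation ring -/
theorem guny_frob_congr (A : ValuationSubring Qb) (φ : GQ) (q : ℕ) (hφ : A.IsFrobeniusAt φ q)
    (x : Qb) (hx : x ∈ A) : φ x - x ^ q ∈ A.nonunits := by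
  obtain ⟨hdec, hres⟩ := hφ
  set b : A := ⟨x, hx⟩ with hb
  have h1 := hres (IsLocalRing.residue A b)
  rw [← IsLocalRing.ResidueField.residue_smul, ← map_pow] at h1
  have h2 : (⟨φ, hdec⟩ : A.decompositionSubgroup ℚ) • b - b ^ q ∈ IsLocalRing.maximalIdeal A :=
    Ideal.Quotient.eq.mp h1
  rw [← ValuationSubring.coe_mem_nonunits_iff] at h2
  exact h2

/-- (CYC-n, Frobenius) -/
theorem gun_cyc_frob {q : ℕ} (hq : q.Prime) {n : ℕ} (hn : ¬ q ∣ n) (A : ValuationSubring Qb)
    (hA : A.LiesOverPrime q) (φ : GQ) (hφ : A.IsFrobeniusAt φ q) (ζ : Qb) (hζ : ζ ^ n = 1) :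
    φ ζ = ζ ^ q := by
  have hn0 : n ≠ 0 := fun h => hn (h ▸ dvd_zero q)
  have hvζ : A.valuation ζ = 1 := guny_valuation_eq_one A hn0 hζ
  have hζA : ζ ∈ A := (A.valuation_le_one_iff ζ).1 hvζ.le
  have h1 := guny_frob_congr A φ q hφ ζ hζA
  exact guny_root_eq_of_sub_mem hq hn A hA
    (by rw [← pow_mul, mul_comm, pow_mul, hζ, one_pow])
    (by rw [← map_pow, hζ, map_one]) h1

/-- (CYC-n, inertia) -/
theorem gun_cyc_inertia {q : ℕ} (hq : q.Prime) {n : ℕ} (hn : ¬ q ∣ n) (A : ValuationSubring Qb)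
    (hA : A.LiesOverPrime q) (τ : GQ) (hτ : τ ∈ A.inertiaSubgroupIn ℚ) (ζ : Qb)
    (hζ : ζ ^ n = 1) : τ ζ = ζ := by
  have hn0 : n ≠ 0 := fun h => hn (h ▸ dvd_zero q)
  have hvζ : A.valuation ζ = 1 := guny_valuation_eq_one A hn0 hζ
  have hζA : ζ ∈ A := (A.valuation_le_one_iff ζ).1 hvζ.le
  have hin := Fermat.Agent.S05.isInertial_of_mem_inertiaSubgroupIn A τ hτ
  exact guny_root_eq_of_sub_mem hq hn A hA hζ
    (by rw [← map_pow, hζ, map_one]) (hin.sub_mem ζ hζA)

end Fermat.Agent.G
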