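import Mathlib
import Fermat.Agent.G.Per.Defs
import Fermat.Prelude.Def_CuspForm_HeckeGaloisRepDatum
import Fermat.Prelude.Def_ModularCurve_HeckeModule
import Fermat.Prelude.Def_ModularCurve_PeriodHomPair

/-!
# Program G, package Unr (S31: a Hecke–Galois datum is unramified outside `S`): definitions

* `gunLuc t d b` : the Lucas sequence `V_b(t, d)` in an arbitrary ring `R` (`t : R`, `d : ℤ`):
  `V_0 = 2`, `V_1 = t`, `V_{b+2} = t V_{b+1} - d V_b`.  If `A² - tA + d = 0` then
  `tr (A^b) = V_b(t, d)` in rank two, and if `t = α + β` with `α β = d` commuting then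
  `V_b(t, d) = α^b + β^b`.
* `GunCorr x e` : the Hecke operator `x` (an endomorphism of `S₂(Γ₀(N))`) corresponds to the
  endomorphism `e` of `Γ₀(N)^ab` under the period pairing.
-/

set_option autoImplicit false

noncomputable section

namespace Fermat.Agent.G

open Fermat.Agent.S16LB CongruenceSubgroup

/-- The Lucas sequence `V_b(t, d)` in a ring. -/
def gunLuc {R : Type*} [Ring R] (t : R) (d : ℤ) : ℕ → R
  | 0 => 2
  | 1 => t
  | (b + 2) => t * gunLuc t d (b + 1) - d • gunLuc t d b

@[simp] theorem gunLuc_zero {R : Type*} [Ring R] (t : R) (d : ℤ) : gunLuc t d 0 = 2 := rfl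

@[simp] theorem gunLuc_one {R : Type*} [Ring R] (t : R) (d : ℤ) : gunLuc t d 1 = t := rfl

theorem gunLuc_succ_succ {R : Type*} [Ring R] (t : R) (d : ℤ) (b : ℕ) :
    gunLuc t d (b + 2) = t * gunLuc t d (b + 1) - d • gunLuc t d b := rfl

/-- ring homomorphisms commute with the Lucas sequence. -/
theorem gunLuc_map {R R' : Type*} [Ring R] [Ring R'] (f : R →+* R') (t : R) (d : ℤ) (b : ℕ) :
    f (gunLuc t d b) = gunLuc (f t) d b := by
  induction b using Nat.strong_induction_on with
  | _ b ih =>
    match b with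
    | 0 => rw [gunLuc_zero, gunLuc_zero, map_ofNat]
    | 1 => rw [gunLuc_one, gunLuc_one]
    | (b + 2) =>
      rw [gunLuc_succ_succ, gunLuc_succ_succ, map_sub, map_mul, map_zsmul,
        ih (b + 1) (by omega), ih b (by omega)]

/-- the Lucas element commutes with `t`. -/
theorem gunLuc_commute {R : Type*} [Ring R] (t : R) (d : ℤ) (b : ℕ) :
    Commute t (gunLuc t d b) := by
  induction b using Nat.strong_induction_on with
  | _ b ih =>
    match b with
    | 0 => exact (Commute.ofNat_right t 2)
    | 1 => exact Commute.refl t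
    | (b + 2) =>
      rw [gunLuc_succ_succ]
      exact ((Commute.refl t).mul_right (ih (b + 1) (by omega))).sub_right
        (by rw [zsmul_eq_mul]; exact (Int.cast_commute d t).symm.mul_right (ih b (by omega)))

/-- The Hecke operator `x` on `S₂(Γ₀(N))` corresponds to the endomorphism `e` of `Γ₀(N)^ab` under
the period pairing: `per (x f) = per f ∘ e` for all `f`. -/
def GunCorr (N : ℕ) (x : Module.End ℂ (CuspForm (Gamma0 N) 2))
    (e : AddMonoid.End (s16lbAb N)) : Prop :=
  ∀ f : CuspForm (Gamma0 N) 2,
    s16lbDesc (ModularCurve.periodMap N (x f)) = (s16lbDesc (ModularCurve.periodMap N f)).comp e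

end Fermat.Agent.G
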