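import Mathlib
import Fermat.Agent.G.Unr.Defs
import Fermat.Agent.G.Per.Comm
import Fermat.Agent.S21

/-!
# Program G, package Unr : the correspondence `GunCorr` between Hecke operators on `S₂(Γ₀(N))`
and endomorphisms of `Γ₀(N)^ab` (period pairing), API

`gunPer N f = s16lbDesc (periodMap N f)`, additive and homogeneous in `f`;
`GunCorr` holds for `(T_ℓ, gprT N ℓ)` and is stable under `-`, `ℤ`-multiples, products (in the
opposite order) and the Lucas sequence.
-/

set_option autoImplicit false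

noncomputable section

namespace Fermat.Agent.G

open Fermat.Agent.S16LB CongruenceSubgroup ModularCurve

theorem gunr_desc_add {N : ℕ} {A : Type*} [AddCommGroup A] (φ ψ : Additive (Gamma0 N) →+ A) :
    s16lbDesc (φ + ψ) = s16lbDesc φ + s16lbDesc ψ := by
  refine s16lbAb_ext fun γ => ?_
  rw [s16lbDesc_cls, AddMonoidHom.add_apply, AddMonoidHom.add_apply, s16lbDesc_cls, s16lbDesc_cls]

theorem gunr_desc_neg {N : ℕ} {A : Type*} [AddCommGroup A] (φ : Additive (Gamma0 N) →+ A) :
    s16lbDesc (-φ) = -s16lbDesc φ := by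
  refine s16lbAb_ext fun γ => ?_
  rw [s16lbDesc_cls, AddMonoidHom.neg_apply, AddMonoidHom.neg_apply, s16lbDesc_cls]

theorem gunr_desc_zero {N : ℕ} {A : Type*} [AddCommGroup A] :
    s16lbDesc (0 : Additive (Gamma0 N) →+ A) = 0 := by
  refine s16lbAb_ext fun γ => ?_
  rw [s16lbDesc_cls, AddMonoidHom.zero_apply, AddMonoidHom.zero_apply]

/-- the period character `per f : Γ₀(N)^ab →+ ℂ`, additively in `f`. -/
def gunPer (N : ℕ) [NeZero N] : CuspForm (Gamma0 N) 2 →+ (s16lbAb N →+ ℂ) where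
  toFun f := s16lbDesc (periodMap N f)
  map_zero' := by
    have h := (Fermat.Agent.S21.pml N).map_zero
    rw [Fermat.Agent.S21.pml_apply] at h
    rw [h, gunr_desc_zero]
  map_add' f g := by
    have h := (Fermat.Agent.S21.pml N).map_add f g
    rw [Fermat.Agent.S21.pml_apply, Fermat.Agent.S21.pml_apply, Fermat.Agent.S21.pml_apply] at h
    rw [h, gunr_desc_add]

theorem gunPer_apply (N : ℕ) [NeZero N] (f : CuspForm (Gamma0 N) 2) :
    gunPer N f = s16lbDesc (periodMap N f) := rfl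

theorem gunCorr_iff (N : ℕ) [NeZero N] (x : Module.End ℂ (CuspForm (Gamma0 N) 2))
    (e : AddMonoid.End (s16lbAb N)) :
    GunCorr N x e ↔ ∀ f, gunPer N (x f) = (gunPer N f).comp e := Iff.rfl

variable {N : ℕ} [NeZero N]

theorem gunCorr_T {ℓ : ℕ} (hℓ : ℓ.Prime) (hℓN : ¬ ℓ ∣ N) :
    GunCorr N (CuspForm.heckeTLin 2 hℓ hℓN) (gprT N ℓ) :=
  fun f => gprc_period_hecke N hℓ hℓN f

theorem gunCorr_sub {x x' : Module.End ℂ (CuspForm (Gamma0 N) 2)} {e e' : AddMonoid.End (s16lbAb N)}
    (h : GunCorr N x e) (h' : GunCorr N x' e') : GunCorr N (x - x') (e - e') := by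
  rw [gunCorr_iff] at *
  intro f
  rw [LinearMap.sub_apply, map_sub, h f, h' f]
  refine AddMonoidHom.ext fun γ => ?_
  change gunPer N f (e γ) - gunPer N f (e' γ) = gunPer N f (e γ - e' γ)
  rw [map_sub]

theorem gunCorr_zsmul {x : Module.End ℂ (CuspForm (Gamma0 N) 2)} {e : AddMonoid.End (s16lbAb N)}
    (h : GunCorr N x e) (d : ℤ) : GunCorr N (d • x) (d • e) := by
  rw [gunCorr_iff] at *
  intro f
  rw [LinearMap.smul_apply, map_zsmul, h f]
  refine AddMonoidHom.ext fun γ => ?_
  change d • gunPer N f (e γ) = gunPer N f (d • e γ)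
  rw [map_zsmul]

theorem gunCorr_mul {x x' : Module.End ℂ (CuspForm (Gamma0 N) 2)} {e e' : AddMonoid.End (s16lbAb N)}
    (h : GunCorr N x e) (h' : GunCorr N x' e') : GunCorr N (x * x') (e' * e) := by
  rw [gunCorr_iff] at *
  intro f
  rw [Module.End.mul_apply, h (x' f), h' f]
  rfl

theorem gunCorr_two : GunCorr N (2 : Module.End ℂ (CuspForm (Gamma0 N) 2)) 2 := by
  rw [gunCorr_iff]
  intro f
  have e2 : (2 : Module.End ℂ (CuspForm (Gamma0 N) 2)) = 1 + 1 := one_add_one_eq_two.symm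
  have e2' : (2 : AddMonoid.End (s16lbAb N)) = 1 + 1 := one_add_one_eq_two.symm
  have h2 : (2 : Module.End ℂ (CuspForm (Gamma0 N) 2)) f = f + f := by
    rw [e2, LinearMap.add_apply, Module.End.one_apply]
  rw [h2, map_add]
  refine AddMonoidHom.ext fun γ => ?_
  have h3 : (2 : AddMonoid.End (s16lbAb N)) γ = γ + γ := by
    rw [e2']
    rfl
  change gunPer N f γ + gunPer N f γ = gunPer N f ((2 : AddMonoid.End (s16lbAb N)) γ)
  rw [h3, map_add]

/-- the Lucas sequences correspond. -/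
theorem gunCorr_luc {x : Module.End ℂ (CuspForm (Gamma0 N) 2)} {e : AddMonoid.End (s16lbAb N)}
    (h : GunCorr N x e) (d : ℤ) (b : ℕ) : GunCorr N (gunLuc x d b) (gunLuc e d b) := by
  induction b using Nat.strong_induction_on with
  | _ b ih =>
    match b with
    | 0 => exact gunCorr_two
    | 1 => exact h
    | (b + 2) =>
      rw [gunLuc_succ_succ, gunLuc_succ_succ, (gunLuc_commute e d (b + 1)).eq]
      exact gunCorr_sub (gunCorr_mul h (ih (b + 1) (by omega))) (gunCorr_zsmul (ih b (by omega)) d)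

end Fermat.Agent.G
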