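import Mathlib
import Fermat.Agent.G.Unr.Defs
import Fermat.Agent.G.EsTor.Main

/-!
# Program G, package Unr, row G-UNR-D1 (helper11): `gun_luc_torsion` (prefix `gund_`)

On the `p`-power torsion of `J₀(N)`, `V_b(T_ℓ, ℓ) = φ^b + ℓ^b φ^{-b}` for every Frobenius lift `φ`
at `ℓ ∤ N p`.
-/

set_option autoImplicit false

noncomputable section

namespace Fermat.Agent.G

open CongruenceSubgroup ModularCurve AlgebraicCurve Fermat.Agent.S16LB Polynomial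

local notation "Qb" => AlgebraicClosure ℚ
local notation "GQ" => (AlgebraicClosure ℚ ≃ₐ[ℚ] AlgebraicClosure ℚ)

section Abstract

variable {M : Type*} [AddCommGroup M] {Γ : Type*} [Group Γ] [DistribMulAction Γ M]

/-- `p`-power torsion is stable under a distributive action. -/
theorem gund_tors_smul (p : ℕ) (σ : Γ) {x : M} (hx : ∃ n : ℕ, p ^ n • x = 0) :
    ∃ n : ℕ, p ^ n • (σ • x) = 0 := by
  obtain ⟨n, hn⟩ := hx
  exact ⟨n, by rw [← smul_comm, hn, smul_zero]⟩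

theorem gund_tors_add (p : ℕ) {x y : M} (hx : ∃ n : ℕ, p ^ n • x = 0)
    (hy : ∃ n : ℕ, p ^ n • y = 0) : ∃ n : ℕ, p ^ n • (x + y) = 0 := by
  obtain ⟨n, hn⟩ := hx
  obtain ⟨m, hm⟩ := hy
  refine ⟨n + m, ?_⟩
  have h1 : p ^ (n + m) • x = 0 := by rw [pow_add, mul_comm, mul_smul, hn, smul_zero]
  have h2 : p ^ (n + m) • y = 0 := by rw [pow_add, mul_smul, hm, smul_zero]
  rw [smul_add, h1, h2, add_zero]

theorem gund_tors_nsmul (p : ℕ) (k : ℕ) {x : M} (hx : ∃ n : ℕ, p ^ n • x = 0) :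
    ∃ n : ℕ, p ^ n • (k • x) = 0 := by
  obtain ⟨n, hn⟩ := hx
  exact ⟨n, by rw [smul_comm, hn, smul_zero]⟩

/-- abstract form: if `T z = φ z + ℓ φ⁻¹ z` on a `φ`-stable additive class of elements, then
`V_b(T, ℓ) x = φ^b x + ℓ^b φ^{-b} x` there. -/
theorem gund_luc_abstract (T : Module.End ℤ M) (ℓ : ℕ) (φ : Γ) (P : M → Prop)
    (hP_smul : ∀ (σ : Γ) (x : M), P x → P (σ • x))
    (hP_add : ∀ x y : M, P x → P y → P (x + y))
    (hP_nsmul : ∀ (k : ℕ) (x : M), P x → P (k • x))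
    (hT : ∀ z : M, P z → T z = φ • z + ℓ • (φ⁻¹ • z)) (b : ℕ) :
    ∀ x : M, P x → gunLuc T (ℓ : ℤ) b x = φ ^ b • x + ℓ ^ b • ((φ ^ b)⁻¹ • x) := by
  induction b using Nat.strong_induction_on with
  | _ b ih =>
    intro x hx
    match b with
    | 0 =>
      rw [gunLuc_zero, pow_zero, pow_zero, inv_one, one_smul, one_smul]
      have h2 : (2 : Module.End ℤ M) = 1 + 1 := one_add_one_eq_two.symm
      rw [h2, LinearMap.add_apply, Module.End.one_apply]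
    | 1 =>
      rw [gunLuc_one, pow_one, pow_one, hT x hx]
    | (b + 2) =>
      have h1 := ih (b + 1) (by omega) x hx
      have h0 := ih b (by omega) x hx
      have hz : P (φ ^ (b + 1) • x + ℓ ^ (b + 1) • ((φ ^ (b + 1))⁻¹ • x)) :=
        hP_add _ _ (hP_smul _ _ hx) (hP_nsmul _ _ (hP_smul _ _ hx))
      rw [gunLuc_succ_succ, LinearMap.sub_apply, Module.End.mul_apply, LinearMap.smul_apply, h1, h0,
        hT _ hz]
      simp only [smul_add, natCast_zsmul]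
      have e1 : φ • φ ^ (b + 1) • x = φ ^ (b + 2) • x := by
        rw [← mul_smul, ← pow_succ']
      have e2 : φ⁻¹ • φ ^ (b + 1) • x = φ ^ b • x := by
        rw [← mul_smul, pow_succ', inv_mul_cancel_left]
      have e3 : φ • ℓ ^ (b + 1) • (φ ^ (b + 1))⁻¹ • x = ℓ ^ (b + 1) • (φ ^ b)⁻¹ • x := by
        rw [smul_comm φ (ℓ ^ (b + 1)), ← mul_smul, pow_succ (φ) b, mul_inv_rev,
          mul_inv_cancel_left]
      have e4 : φ⁻¹ • ℓ ^ (b + 1) • (φ ^ (b + 1))⁻¹ • x = ℓ ^ (b + 1) • (φ ^ (b + 2))⁻¹ • x := by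
        rw [smul_comm φ⁻¹ (ℓ ^ (b + 1)), ← mul_smul, ← mul_inv_rev, ← pow_succ]
      rw [e1, e2, e3, e4, ← mul_smul ℓ (ℓ ^ (b + 1)), ← pow_succ' ℓ (b + 1),
        ← mul_smul ℓ (ℓ ^ b), ← pow_succ' ℓ b]
      abel

end Abstract

/-- (D1) on the `p`-power torsion of `J₀(N)`, `V_b(T_ℓ, ℓ) = φ^b + ℓ^b φ^{-b}` for every Frobenius
lift `φ` at `ℓ ∤ N p`.  (`g_es_torsion` gives `φ φ y - T_ℓ (φ y) + ℓ y = 0`, `gasm_hecke_galois`
gives `T_ℓ φ = φ T_ℓ`; put `y = φ⁻¹ x` for `b = 1`, then induct with the Lucas recursion.) -/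
theorem gun_luc_torsion (N : ℕ) [NeZero N] (p : ℕ) (hp : p.Prime) (ℓ : ℕ) (hℓ : ℓ.Prime)
    (hℓN : ¬ ℓ ∣ N) (hℓp : ℓ ≠ p) (A : ValuationSubring Qb) (hA : A.LiesOverPrime ℓ) (φ : GQ)
    (hφ : A.IsFrobeniusAt φ ℓ) (b : ℕ) (x : JZero N) (hx : ∃ n : ℕ, p ^ n • x = 0) :
    gunLuc (R := Module.End ℤ (JZero N)) (heckeOperatorBar N ⟨ℓ, hℓ⟩) ℓ b x
      = φ ^ b • x + ℓ ^ b • ((φ ^ b)⁻¹ • x) := by
  refine gund_luc_abstract (heckeOperatorBar N ⟨ℓ, hℓ⟩) ℓ φ (fun y => ∃ n : ℕ, p ^ n • y = 0)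
    (fun σ y hy => gund_tors_smul p σ hy) (fun y z hy hz => gund_tors_add p hy hz)
    (fun k y hy => gund_tors_nsmul p k hy) ?_ b x hx
  intro z hz
  have h := (g_es_torsion N p hp ℓ hℓ hℓN hℓp A hA).2 φ hφ (φ⁻¹ • z) (gund_tors_smul p φ⁻¹ hz)
  rw [smul_inv_smul] at h
  have h3 : φ • z + ℓ • (φ⁻¹ • z) - heckeOperatorBar N ⟨ℓ, hℓ⟩ z = 0 := by
    rw [← h]
    abel
  exact (sub_eq_zero.mp h3).symm

end Fermat.Agent.G
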