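import Mathlib
import Fermat.Agent.G.Unr.Defs
import Fermat.Agent.G.Per.Stable

/-!
# Program G, package Unr (S31), row D2 (`gun_theta_luc`), helper prefix `gunt_`

An equivariant `Θ : Hom_pe(Γ₀(N), ℤ/n) →+ J₀(N)` intertwines `χ ↦ χ ∘ V_b(tr_ℓ, ℓ)` with
`V_b(T_ℓ, ℓ)` (Lucas sequences).  Two-step induction on `b`; `Hom_pe` is stable under
`χ ↦ χ ∘ tr_ℓ` by helper11's `gprT_mem_PE`.
-/

set_option autoImplicit false

noncomputable section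

namespace Fermat.Agent.G

open CongruenceSubgroup ModularCurve AlgebraicCurve Fermat.Agent.S16LB Polynomial

local notation "Qb" => AlgebraicClosure ℚ
local notation "GQ" => (AlgebraicClosure ℚ ≃ₐ[ℚ] AlgebraicClosure ℚ)

/-- `Hom_pe` is stable under `χ ↦ χ ∘ tr_ℓ`. -/
theorem gunt_comp_gprT_mem {N : ℕ} {A : Type*} [AddCommGroup A] (ℓ : ℕ) {x : s16lbAb N →+ A}
    (hx : x ∈ gprHomPE N A) : x.comp (gprT N ℓ) ∈ gprHomPE N A := by
  rw [gpr_mem_homPE_iff_le_ker] at hx ⊢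
  intro y hy
  rw [AddMonoidHom.mem_ker, AddMonoidHom.comp_apply]
  exact hx (gprT_mem_PE N ℓ hy)

/-- the abstract form of (D2): a subgroup `H` of `Hom(A, B)` stable under `χ ↦ χ ∘ t`, and an
additive `Θ : H → J` with `Θ (χ ∘ t) = T (Θ χ)`; then `Θ (χ ∘ V_b(t, d)) = V_b(T, d) (Θ χ)`. -/
theorem gunt_abstract {A B J : Type*} [AddCommGroup A] [AddCommGroup B] [AddCommGroup J]
    (H : AddSubgroup (A →+ B)) (t : AddMonoid.End A)
    (ht : ∀ x : A →+ B, x ∈ H → x.comp t ∈ H) (d : ℤ)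
    (Θ : H →+ J) (T : Module.End ℤ J)
    (hΘ : ∀ χ χ' : H, (χ' : A →+ B) = (χ : A →+ B).comp t → Θ χ' = T (Θ χ)) (b : ℕ) (χ : H) :
    ∃ χ' : H, (χ' : A →+ B) = (χ : A →+ B).comp (gunLuc (R := AddMonoid.End A) t d b) ∧
      Θ χ' = gunLuc (R := Module.End ℤ J) T d b (Θ χ) := by
  induction b using Nat.strong_induction_on generalizing χ with
  | _ b ih =>
    match b with
    | 0 =>
      refine ⟨χ + χ, ?_, ?_⟩
      · rw [gunLuc_zero]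
        ext x
        have h2 : (2 : AddMonoid.End A) = 1 + 1 := one_add_one_eq_two.symm
        rw [h2]
        show (χ : A →+ B) x + (χ : A →+ B) x = (χ : A →+ B) (x + x)
        rw [map_add]
      · rw [gunLuc_zero, map_add]
        have h2 : (2 : Module.End ℤ J) = 1 + 1 := one_add_one_eq_two.symm
        rw [h2]
        rfl
    | 1 =>
      refine ⟨⟨(χ : A →+ B).comp t, ht _ χ.2⟩, ?_, ?_⟩
      · rw [gunLuc_one]
      · rw [gunLuc_one]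
        exact hΘ χ _ rfl
    | (b + 2) =>
      obtain ⟨χ1, h1, h1'⟩ := ih (b + 1) (by omega) χ
      obtain ⟨χ0, h0, h0'⟩ := ih b (by omega) χ
      have h2' : Θ ⟨(χ1 : A →+ B).comp t, ht _ χ1.2⟩ = T (Θ χ1) := hΘ χ1 _ rfl
      refine ⟨⟨(χ1 : A →+ B).comp t, ht _ χ1.2⟩ - d • χ0, ?_, ?_⟩
      · rw [gunLuc_succ_succ, (gunLuc_commute t d (b + 1)).eq]
        ext x
        show (χ1 : A →+ B) (t x) - d • (χ0 : A →+ B) x
          = (χ : A →+ B) (gunLuc (R := AddMonoid.End A) t d (b + 1) (t x)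
              - d • gunLuc (R := AddMonoid.End A) t d b x)
        rw [map_sub, map_zsmul, h1, h0]
        rfl
      · rw [map_sub, map_zsmul, h2', h1', h0', gunLuc_succ_succ]
        rfl

/-- (D2) `Θ` intertwines `χ ↦ χ ∘ V_b(tr_ℓ, ℓ)` with `V_b(T_ℓ, ℓ)`.  (Induction on `b` from the
equivariance; `Hom_pe` is stable under `χ ↦ χ ∘ tr_ℓ` by helper11's `gprT_mem_PE`.) -/
theorem gun_theta_luc (N : ℕ) [NeZero N] (n : ℕ) (Θ : gprHomPE N (ZMod n) →+ JZero N)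
    (hΘ : ∀ (ℓ : ℕ) (hℓ : ℓ.Prime) (_ : ¬ ℓ ∣ N) (_ : ¬ ℓ ∣ n) (χ χ' : gprHomPE N (ZMod n)),
      (χ' : s16lbAb N →+ ZMod n) = (χ : s16lbAb N →+ ZMod n).comp (gprT N ℓ) →
        Θ χ' = heckeOperatorBar N ⟨ℓ, hℓ⟩ (Θ χ))
    (ℓ : ℕ) (hℓ : ℓ.Prime) (hℓN : ¬ ℓ ∣ N) (hℓn : ¬ ℓ ∣ n) (b : ℕ) (χ : gprHomPE N (ZMod n)) :
    ∃ χ' : gprHomPE N (ZMod n),
      (χ' : s16lbAb N →+ ZMod n)
        = (χ : s16lbAb N →+ ZMod n).comp (gunLuc (R := AddMonoid.End (s16lbAb N)) (gprT N ℓ) ℓ b) ∧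
      Θ χ' = gunLuc (R := Module.End ℤ (JZero N)) (heckeOperatorBar N ⟨ℓ, hℓ⟩) ℓ b (Θ χ) :=
  gunt_abstract (gprHomPE N (ZMod n)) (gprT N ℓ) (fun _ hx => gunt_comp_gprT_mem ℓ hx) (ℓ : ℤ) Θ
    (heckeOperatorBar N ⟨ℓ, hℓ⟩) (hΘ ℓ hℓ hℓN hℓn) b χ

end Fermat.Agent.G
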