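/-
Program G, package Unr (S31), row G-UNR-D (helper28): the Hecke congruence `gun_hecke_congr`.

Black boxes: `gun_luc_torsion` (D1), `gun_theta_luc` (D2), `gun_cyc_frob`/`gun_cyc_inertia` (CYC-n),
`g_es_torsion` (G/EsTor, inertia clause), `gop_finite_fixing_normal` (G/Open), `gpr_ab_fg` (G/Per).
-/
import Mathlib
import Fermat.Agent.G.Unr.Defs
import Fermat.Agent.G.Unr.LucTorsion
import Fermat.Agent.G.Unr.ThetaLuc
import Fermat.Agent.G.Unr.Cyc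
import Fermat.Agent.G.EsTor.Main
import Fermat.Agent.G.Open.Main
import Fermat.Agent.G.Per.Fg

set_option autoImplicit false
set_option linter.unusedSectionVars false
set_option linter.unusedVariables false
set_option linter.style.haveILetI false

noncomputable section

namespace Fermat.Agent.G

open CongruenceSubgroup ModularCurve AlgebraicCurve Fermat.Agent.S16LB Polynomial

local notation "Qb" => AlgebraicClosure ℚ
local notation "GQ" => (AlgebraicClosure ℚ ≃ₐ[ℚ] AlgebraicClosure ℚ)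

/-- homomorphisms from the finitely generated group `Γ₀(N)^ab` to a finite group: finitely many -/
theorem gunh_finite_hom (N : ℕ) [NeZero N] (A : Type*) [AddCommGroup A] [Finite A] :
    Finite (s16lbAb N →+ A) := by
  classical
  obtain ⟨S, hS⟩ := (AddGroup.fg_iff.mp (gpr_ab_fg N))
  obtain ⟨hS, hSfin⟩ := hS
  have : Finite S := hSfin
  refine Finite.of_injective (fun (f : s16lbAb N →+ A) (s : S) => f s) ?_
  intro f g hfg
  refine AddMonoidHom.eq_of_eqOn_dense hS ?_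
  intro s hs
  exact congrFun hfg ⟨s, hs⟩

/-- the fixing subgroup of a normal intermediate field is stable under conjugation -/
theorem gunh_conj_mem {E : IntermediateField ℚ Qb} (hE : Normal ℚ E) (h u : GQ)
    (hu : u ∈ E.fixingSubgroup) : h * u * h⁻¹ ∈ E.fixingSubgroup := by
  have hcl : IsAlgClosure ℚ Qb := AlgebraicClosure.instIsAlgClosure ℚ
  have hnorm : Normal ℚ Qb := IsAlgClosure.normal ℚ Qb
  rw [IntermediateField.mem_fixingSubgroup_iff] at hu ⊢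
  intro x hx
  have hmap := (IntermediateField.normal_iff_forall_map_le' (F := ℚ) (K := E) (L := Qb)).mp hE h⁻¹
  have hx' : h⁻¹ x ∈ E := hmap ⟨x, hx, rfl⟩
  show h (u (h⁻¹ x)) = x
  rw [hu _ hx']
  exact h.apply_symm_apply x

/-- iterating a Frobenius on a root of unity of order prime to `ℓ` -/
theorem gunh_frob_pow {ℓ : ℕ} (hℓ : ℓ.Prime) {n : ℕ} (hn : ¬ ℓ ∣ n) (A : ValuationSubring Qb)
    (hA : A.LiesOverPrime ℓ) (φ : GQ) (hφ : A.IsFrobeniusAt φ ℓ) (ζ : Qb) (hζ : ζ ^ n = 1)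
    (b : ℕ) : (φ ^ b) ζ = ζ ^ (ℓ ^ b) := by
  induction b with
  | zero => simp
  | succ b ih =>
    rw [pow_succ', AlgEquiv.mul_apply, ih]
    have h1 : (ζ ^ (ℓ ^ b)) ^ n = 1 := by rw [← pow_mul, mul_comm, pow_mul, hζ, one_pow]
    rw [gun_cyc_frob hℓ hn A hA φ hφ _ h1, ← pow_mul, ← pow_succ]

/-- congruent multiples of a torsion element -/
theorem gunh_nsmul_eq_of_modEq {M : Type*} [AddCommGroup M] {n a a' : ℕ} (h : a ≡ a' [MOD n])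
    {y : M} (hy : n • y = 0) : a • y = a' • y := by
  rw [← Nat.mod_add_div a n, ← Nat.mod_add_div a' n, add_nsmul, add_nsmul, mul_comm n, mul_comm n,
    mul_nsmul', mul_nsmul', hy, nsmul_zero, nsmul_zero, h]

/-- the Galois action commutes with multiplication by integers -/
theorem gunh_smul_nsmul (N : ℕ) (σ : GQ) (k : ℕ) (x : JZero N) : σ • (k • x) = k • (σ • x) :=
  map_nsmul (DistribSMul.toAddMonoidHom (JZero N) σ) k x

/-! ### (D) the geometric core -/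

/-- (D) the Hecke congruence: there is a finite normal level `E` such that, whenever `φ^b` and
`φ'^b'` (Frobenius lifts at `ℓ, ℓ' ∤ N p`) agree modulo `G_E` with `τ h` resp. `h`, `τ` in an
inertia group at `q ∤ N p`, then `χ ∘ V_b(tr_ℓ, ℓ) = χ ∘ V_b'(tr_ℓ', ℓ')` on
`Hom_pe(Γ₀(N), ℤ/p^m)`. -/
theorem gun_hecke_congr (N : ℕ) [NeZero N] (p : ℕ) (hp : p.Prime) (m : ℕ)
    (Θ : gprHomPE N (ZMod (p ^ m)) →+ JZero N) (hΘinj : Function.Injective Θ)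
    (hΘ : ∀ (ℓ : ℕ) (hℓ : ℓ.Prime) (_ : ¬ ℓ ∣ N) (_ : ¬ ℓ ∣ p ^ m)
      (χ χ' : gprHomPE N (ZMod (p ^ m))),
      (χ' : s16lbAb N →+ ZMod (p ^ m)) = (χ : s16lbAb N →+ ZMod (p ^ m)).comp (gprT N ℓ) →
        Θ χ' = heckeOperatorBar N ⟨ℓ, hℓ⟩ (Θ χ)) :
    ∃ E : IntermediateField ℚ Qb, FiniteDimensional ℚ E ∧ Normal ℚ E ∧
      ∀ (ℓ ℓ' : ℕ) (_ : ℓ.Prime) (_ : ℓ'.Prime) (_ : ¬ ℓ ∣ N) (_ : ¬ ℓ' ∣ N) (_ : ℓ ≠ p)
        (_ : ℓ' ≠ p) (A A' : ValuationSubring Qb) (_ : A.LiesOverPrime ℓ)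
        (_ : A'.LiesOverPrime ℓ') (φ φ' : GQ) (_ : A.IsFrobeniusAt φ ℓ)
        (_ : A'.IsFrobeniusAt φ' ℓ') (q : ℕ) (_ : q.Prime) (_ : ¬ q ∣ N) (_ : q ≠ p)
        (P : ValuationSubring Qb) (_ : P.LiesOverPrime q) (τ : GQ)
        (_ : τ ∈ P.inertiaSubgroupIn ℚ) (h : GQ) (b b' : ℕ),
        (φ ^ b)⁻¹ * (τ * h) ∈ E.fixingSubgroup → (φ' ^ b')⁻¹ * h ∈ E.fixingSubgroup →
        ∀ χ ∈ gprHomPE N (ZMod (p ^ m)),
          χ.comp (gunLuc (R := AddMonoid.End (s16lbAb N)) (gprT N ℓ) ℓ b)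
            = χ.comp (gunLuc (R := AddMonoid.End (s16lbAb N)) (gprT N ℓ') ℓ' b') := by
  classical
  have hn0 : p ^ m ≠ 0 := pow_ne_zero _ hp.ne_zero
  haveI : NeZero (p ^ m) := ⟨hn0⟩
  haveI : Finite (s16lbAb N →+ ZMod (p ^ m)) := gunh_finite_hom N _
  have hfinX : (Set.range Θ).Finite := Set.finite_range Θ
  obtain ⟨E₁, hE₁fin, hE₁norm, hE₁⟩ := gop_finite_fixing_normal N (Set.range Θ) hfinX
  obtain ⟨ζ, hζ⟩ := HasEnoughRootsOfUnity.exists_primitiveRoot Qb (p ^ m)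
  have hcl : IsAlgClosure ℚ Qb := AlgebraicClosure.instIsAlgClosure ℚ
  have halg : Algebra.IsAlgebraic ℚ Qb := AlgebraicClosure.isAlgebraic ℚ
  have hnormQb : Normal ℚ Qb := IsAlgClosure.normal ℚ Qb
  haveI : FiniteDimensional ℚ (IntermediateField.adjoin ℚ {ζ}) :=
    IntermediateField.adjoin.finiteDimensional (Algebra.IsIntegral.isIntegral ζ)
  haveI : FiniteDimensional ℚ E₁ := hE₁fin
  have hE₀fin : FiniteDimensional ℚ (E₁ ⊔ IntermediateField.adjoin ℚ {ζ} :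
      IntermediateField ℚ Qb) := IntermediateField.finiteDimensional_sup E₁ _
  refine ⟨IntermediateField.normalClosure ℚ (E₁ ⊔ IntermediateField.adjoin ℚ {ζ} :
      IntermediateField ℚ Qb) Qb, normalClosure.is_finiteDimensional ℚ _ Qb,
    normalClosure.normal ℚ _ Qb, ?_⟩
  set E : IntermediateField ℚ Qb := IntermediateField.normalClosure ℚ
    (E₁ ⊔ IntermediateField.adjoin ℚ {ζ} : IntermediateField ℚ Qb) Qb with hEdef
  have hEnorm : Normal ℚ E := normalClosure.normal ℚ _ Qb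
  have hE₀le : (E₁ ⊔ IntermediateField.adjoin ℚ {ζ} : IntermediateField ℚ Qb) ≤ E :=
    IntermediateField.le_normalClosure _
  have hfixX : ∀ u ∈ E.fixingSubgroup, ∀ χ, u • Θ χ = Θ χ := fun u hu χ =>
    hE₁ u (gop_mem_fixing_of_le (le_sup_left.trans hE₀le) u hu) _ ⟨χ, rfl⟩
  have hfixζ : ∀ u ∈ E.fixingSubgroup, u ζ = ζ := fun u hu =>
    (IntermediateField.mem_fixingSubgroup_iff E u).mp hu ζ
      (hE₀le (le_sup_right (α := IntermediateField ℚ Qb)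
        (IntermediateField.mem_adjoin_simple_self ℚ ζ)))
  intro ℓ ℓ' hℓ hℓ' hℓN hℓ'N hℓp hℓ'p A A' hA hA' φ φ' hφ hφ' q hq hqN hqp P hP τ hτ h b b'
    hu hu' χ hχ
  -- notation
  have hdvd : ∀ {r : ℕ}, r.Prime → r ≠ p → ¬ r ∣ p ^ m := fun hr hrp hd =>
    hrp ((Nat.prime_dvd_prime_iff_eq hr hp).mp (hr.dvd_of_dvd_pow hd))
  set x : JZero N := Θ ⟨χ, hχ⟩ with hxdef
  have hx : (p ^ m) • x = 0 := by
    rw [hxdef, ← map_nsmul]
    have : (p ^ m) • (⟨χ, hχ⟩ : gprHomPE N (ZMod (p ^ m))) = 0 := by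
      apply Subtype.ext
      apply AddMonoidHom.ext
      intro a
      show (p ^ m) • χ a = 0
      rw [nsmul_eq_mul, ZMod.natCast_self, zero_mul]
    rw [this, map_zero]
  have htors : ∀ g : GQ, ∃ k : ℕ, p ^ k • (g • x) = 0 := fun g =>
    ⟨m, by rw [← gunh_smul_nsmul, hx]; exact smul_zero (A := JZero N) g⟩
  have hx1 : ∃ k : ℕ, p ^ k • x = 0 := ⟨m, hx⟩
  have hin := (g_es_torsion N p hp q hq hqN hqp P hP).1 τ hτ
  -- D2 + injectivity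
  obtain ⟨χ₁, hχ₁, hΘ₁⟩ := gun_theta_luc N (p ^ m) Θ hΘ ℓ hℓ hℓN (hdvd hℓ hℓp) b ⟨χ, hχ⟩
  obtain ⟨χ₂, hχ₂, hΘ₂⟩ := gun_theta_luc N (p ^ m) Θ hΘ ℓ' hℓ' hℓ'N (hdvd hℓ' hℓ'p) b' ⟨χ, hχ⟩
  suffices hkey : gunLuc (R := Module.End ℤ (JZero N)) (heckeOperatorBar N ⟨ℓ, hℓ⟩) ℓ b x =
      gunLuc (R := Module.End ℤ (JZero N)) (heckeOperatorBar N ⟨ℓ', hℓ'⟩) ℓ' b' x by
    have h12 : χ₁ = χ₂ := hΘinj (by rw [hΘ₁, hΘ₂]; exact hkey)
    have h3 : (χ₁ : s16lbAb N →+ ZMod (p ^ m)) = (χ₂ : s16lbAb N →+ ZMod (p ^ m)) := by rw [h12]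
    rw [hχ₁, hχ₂] at h3
    exact h3
  -- D1
  rw [gun_luc_torsion N p hp ℓ hℓ hℓN hℓp A hA φ hφ b x hx1,
    gun_luc_torsion N p hp ℓ' hℓ' hℓ'N hℓ'p A' hA' φ' hφ' b' x hx1]
  -- the elements of `G_E`
  obtain ⟨u, hudef⟩ : ∃ u : GQ, u = (φ ^ b)⁻¹ * (τ * h) := ⟨_, rfl⟩
  obtain ⟨u', hu'def⟩ : ∃ u' : GQ, u' = (φ' ^ b')⁻¹ * h := ⟨_, rfl⟩
  rw [← hudef] at hu
  rw [← hu'def] at hu'
  have hφb : φ ^ b = τ * h * u⁻¹ := by rw [hudef]; group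
  have hφb' : φ' ^ b' = h * u'⁻¹ := by rw [hu'def]; group
  have hφbi : (φ ^ b)⁻¹ = h⁻¹ * (h * u * h⁻¹) * τ⁻¹ := by rw [hudef]; group
  have hφbi' : (φ' ^ b')⁻¹ = h⁻¹ * (h * u' * h⁻¹) := by rw [hu'def]; group
  have hx0 : x = Θ ⟨χ, hχ⟩ := hxdef
  have hux : ∀ v ∈ E.fixingSubgroup, v • x = x := fun v hv => by rw [hx0]; exact hfixX v hv _
  -- the four evaluations
  have e1 : φ ^ b • x = h • x := by
    rw [hφb, mul_smul, mul_smul, hux _ (E.fixingSubgroup.inv_mem hu), hin _ (htors h)]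
  have e2 : φ' ^ b' • x = h • x := by
    rw [hφb', mul_smul, hux _ (E.fixingSubgroup.inv_mem hu')]
  have hτi : τ⁻¹ • x = x := by rw [inv_smul_eq_iff, hin x hx1]
  have e3 : (φ ^ b)⁻¹ • x = h⁻¹ • x := by
    rw [hφbi, mul_smul, mul_smul, hτi, hux _ (gunh_conj_mem hEnorm h u hu)]
  have e4 : (φ' ^ b')⁻¹ • x = h⁻¹ • x := by
    rw [hφbi', mul_smul, hux _ (gunh_conj_mem hEnorm h u' hu')]
  rw [e1, e2, e3, e4]
  congr 1
  -- the cyclotomic congruence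
  have hζ1 : ζ ^ (p ^ m) = 1 := hζ.pow_eq_one
  have c1 : (φ ^ b) ζ = ζ ^ (ℓ ^ b) :=
    gunh_frob_pow hℓ (hdvd hℓ hℓp) A hA φ hφ ζ hζ1 b
  have c2 : (φ' ^ b') ζ = ζ ^ (ℓ' ^ b') :=
    gunh_frob_pow hℓ' (hdvd hℓ' hℓ'p) A' hA' φ' hφ' ζ hζ1 b'
  have hhζ : (h ζ) ^ (p ^ m) = 1 := by rw [← map_pow, hζ1, map_one]
  have c3 : (φ ^ b) ζ = h ζ := by
    rw [hφb, AlgEquiv.mul_apply, AlgEquiv.mul_apply, hfixζ _ (E.fixingSubgroup.inv_mem hu)]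
    exact gun_cyc_inertia hq (hdvd hq hqp) P hP τ hτ (h ζ) hhζ
  have c4 : (φ' ^ b') ζ = h ζ := by
    rw [hφb', AlgEquiv.mul_apply, hfixζ _ (E.fixingSubgroup.inv_mem hu')]
  have hpow : ζ ^ (ℓ ^ b) = ζ ^ (ℓ' ^ b') := by rw [← c1, ← c2, c3, c4]
  have hfo : IsOfFinOrder ζ :=
    isOfFinOrder_iff_pow_eq_one.mpr ⟨p ^ m, Nat.pos_of_ne_zero hn0, hζ1⟩
  have hmod : ℓ ^ b ≡ ℓ' ^ b' [MOD p ^ m] := by
    have := hfo.pow_eq_pow_iff_modEq.mp hpow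
    rwa [← hζ.eq_orderOf] at this
  have hy : (p ^ m) • (h⁻¹ • x) = 0 := by rw [← gunh_smul_nsmul, hx]; exact smul_zero (A := JZero N) h⁻¹
  exact gunh_nsmul_eq_of_modEq hmod hy

end Fermat.Agent.G
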