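/-
Program G, package Unr (S31), row G-UNR-A (helper7): Carayol's kernel lemma in rank two.

`gun_eq_one_of_trace` : if the residual representation of `ρ : GaloisRepAdic T` (`T` ANY local ring)
is absolutely irreducible and `tr ρ(τ g) = tr ρ(g)` for all `g`, then `ρ τ = 1`.

Route (everything in `2 × 2` matrices, prefix `guna_`):
* `guna_mul_eq` : `tr y = 0`, `tr (y b) = 0` ⟹ `y b = adj(b) y` (polarised Cayley–Hamilton);
* `guna_field_core` : over a field, `r : G →* M₂(k)` with commutant `= k` and without stable line,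
  `tr (y r(g)) = 0` for all `g` ⟹ `y = 0`  [`y` invertible ⟹ `r(G)` commutative ⟹ scalar;
  `y` singular ⟹ `y² = 0` and `Im y = ker y` is a stable line];
* `guna_span_top` : hence the `k`-span of `r(G)` is `M₂(k)` (every functional is `tr (y ·)`);
* `guna_span_top_of_residue` : Nakayama: the `T`-span of `R(G)` is `M₂(T)`;
* the trace form: `tr (X E_ji) = X_ij`.
-/
import Mathlib
import Fermat.Prelude.Def_GaloisRep_Adic
import Fermat.Agent.S53.ResidualData

set_option autoImplicit false
set_option linter.unusedSectionVars false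

noncomputable section

namespace Fermat.Agent.G

open scoped TensorProduct

local notation "GQ" => (AlgebraicClosure ℚ ≃ₐ[ℚ] AlgebraicClosure ℚ)

/-! ### `2 × 2` matrices over a commutative ring -/

section Mat

variable {R : Type*} [CommRing R]

/-- polarised Cayley–Hamilton: `tr y = 0`, `tr (y b) = 0` ⟹ `y b = adj(b) y`. -/
theorem guna_mul_eq (y b : Matrix (Fin 2) (Fin 2) R) (hy : y.trace = 0)
    (hyb : (y * b).trace = 0) : y * b = Matrix.adjugate b * y := by
  rw [Matrix.trace_fin_two] at hy hyb
  simp only [Matrix.mul_apply, Fin.sum_univ_two] at hyb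
  rw [Matrix.adjugate_fin_two]
  ext i j
  fin_cases i <;> fin_cases j
  · simp [Matrix.mul_apply, Fin.sum_univ_two]
    linear_combination hyb - b 1 1 * hy
  · simp [Matrix.mul_apply, Fin.sum_univ_two]
    linear_combination b 0 1 * hy
  · simp [Matrix.mul_apply, Fin.sum_univ_two]
    linear_combination b 1 0 * hy
  · simp [Matrix.mul_apply, Fin.sum_univ_two]
    linear_combination hyb - b 0 0 * hy

/-- commutators of adjugates. -/
theorem guna_adj_comm (a b : Matrix (Fin 2) (Fin 2) R) :
    Matrix.adjugate a * Matrix.adjugate b - Matrix.adjugate b * Matrix.adjugate a =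
      a * b - b * a := by
  rw [Matrix.adjugate_fin_two, Matrix.adjugate_fin_two]
  ext i j
  fin_cases i <;> fin_cases j <;>
    simp [Matrix.mul_apply, Fin.sum_univ_two] <;> ring

/-- a traceless matrix of determinant zero has square zero. -/
theorem guna_sq_eq_zero (y : Matrix (Fin 2) (Fin 2) R) (hy : y.trace = 0) (hd : y.det = 0) :
    y * y = 0 := by
  rw [Matrix.trace_fin_two] at hy
  rw [Matrix.det_fin_two] at hd
  have h11 : y 1 1 = - y 0 0 := by linear_combination hy
  ext i j
  fin_cases i <;> fin_cases j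
  · simp [Matrix.mul_apply, Fin.sum_univ_two]
    linear_combination -hd + y 0 0 * hy
  · simp [Matrix.mul_apply, Fin.sum_univ_two]
    linear_combination y 0 1 * hy
  · simp [Matrix.mul_apply, Fin.sum_univ_two]
    linear_combination y 1 0 * hy
  · simp [Matrix.mul_apply, Fin.sum_univ_two]
    linear_combination -hd + y 1 1 * hy

/-- the trace form detects the entries. -/
theorem guna_trace_mul_single (X : Matrix (Fin 2) (Fin 2) R) (i j : Fin 2) :
    (X * Matrix.single j i (1 : R)).trace = X i j := by
  rw [Matrix.trace_fin_two]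
  fin_cases i <;> fin_cases j <;>
    simp [Matrix.mul_apply, Matrix.single]

/-- decomposition along the matrix units. -/
theorem guna_eq_sum_single (X : Matrix (Fin 2) (Fin 2) R) :
    X = X 0 0 • Matrix.single 0 0 (1 : R) + X 0 1 • Matrix.single 0 1 (1 : R) +
      X 1 0 • Matrix.single 1 0 (1 : R) + X 1 1 • Matrix.single 1 1 (1 : R) := by
  ext i j
  fin_cases i <;> fin_cases j <;> simp [Matrix.single]

end Mat

/-! ### the field case -/

section Field

variable {k : Type*} [Field k]

/-- the kernel of a nonzero `2 × 2` matrix is at most a line. -/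
theorem guna_ker_line (y : Matrix (Fin 2) (Fin 2) k) (hy : y ≠ 0) (u w : Fin 2 → k)
    (hu : u ≠ 0) (hyu : y.mulVec u = 0) (hyw : y.mulVec w = 0) : ∃ c : k, w = c • u := by
  have hu0 := congrFun hyu 0
  have hu1 := congrFun hyu 1
  have hw0 := congrFun hyw 0
  have hw1 := congrFun hyw 1
  simp only [Matrix.mulVec, dotProduct, Fin.sum_univ_two, Pi.zero_apply] at hu0 hu1 hw0 hw1
  have hD : w 0 * u 1 - w 1 * u 0 = 0 := by
    by_contra hD
    apply hy
    have e00 : y 0 0 * (w 0 * u 1 - w 1 * u 0) = 0 := by
      linear_combination u 1 * hw0 - w 1 * hu0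
    have e01 : y 0 1 * (w 0 * u 1 - w 1 * u 0) = 0 := by
      linear_combination w 0 * hu0 - u 0 * hw0
    have e10 : y 1 0 * (w 0 * u 1 - w 1 * u 0) = 0 := by
      linear_combination u 1 * hw1 - w 1 * hu1
    have e11 : y 1 1 * (w 0 * u 1 - w 1 * u 0) = 0 := by
      linear_combination w 0 * hu1 - u 0 * hw1
    ext i j
    fin_cases i <;> fin_cases j
    · exact (mul_eq_zero.mp e00).resolve_right hD
    · exact (mul_eq_zero.mp e01).resolve_right hD
    · exact (mul_eq_zero.mp e10).resolve_right hD
    · exact (mul_eq_zero.mp e11).resolve_right hD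
  by_cases h0 : u 0 = 0
  · have h1 : u 1 ≠ 0 := by
      intro h1
      apply hu
      ext i
      fin_cases i
      · exact h0
      · exact h1
    refine ⟨w 1 / u 1, ?_⟩
    ext i
    fin_cases i
    · simp only [Fin.zero_eta, Fin.isValue, Pi.smul_apply, smul_eq_mul, h0, mul_zero]
      rw [h0, mul_zero, sub_zero] at hD
      exact (mul_eq_zero.mp hD).resolve_right h1
    · simp only [Fin.mk_one, Fin.isValue, Pi.smul_apply, smul_eq_mul]
      field_simp
  · refine ⟨w 0 / u 0, ?_⟩
    ext i
    fin_cases i
    · simp only [Fin.zero_eta, Fin.isValue, Pi.smul_apply, smul_eq_mul]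
      field_simp
    · simp only [Fin.mk_one, Fin.isValue, Pi.smul_apply, smul_eq_mul]
      field_simp
      linear_combination -hD

variable {G : Type*} [Monoid G]

/-- the core: a matrix orthogonal (for the trace form) to an "absolutely irreducible" family of
`2 × 2` matrices is zero. -/
theorem guna_field_core (r : G →* Matrix (Fin 2) (Fin 2) k)
    (hschur : ∀ y : Matrix (Fin 2) (Fin 2) k, (∀ g, y * r g = r g * y) →
      ∃ c : k, y = c • (1 : Matrix (Fin 2) (Fin 2) k))
    (hline : ∀ u : Fin 2 → k, u ≠ 0 → ¬ ∀ g, ∃ c : k, (r g).mulVec u = c • u)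
    (y : Matrix (Fin 2) (Fin 2) k) (hy : ∀ g, (y * r g).trace = 0) : y = 0 := by
  have hy0 : y.trace = 0 := by
    have := hy 1
    rwa [map_one, mul_one] at this
  have hadj : ∀ g, y * r g = Matrix.adjugate (r g) * y := fun g => guna_mul_eq y (r g) hy0 (hy g)
  -- `[r g, r h] y = 0`
  have hcomm : ∀ g h, (r g * r h - r h * r g) * y = 0 := by
    intro g h
    have h1 : y * r (g * h) = Matrix.adjugate (r h) * Matrix.adjugate (r g) * y := by
      rw [hadj (g * h), map_mul, Matrix.adjugate_mul_distrib]
    have h2 : y * r (g * h) = Matrix.adjugate (r g) * Matrix.adjugate (r h) * y := by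
      rw [map_mul, ← mul_assoc, hadj g, mul_assoc, hadj h, mul_assoc]
    rw [← guna_adj_comm, sub_mul, ← h1, ← h2, sub_self]
  by_contra hne
  by_cases hdet : y.det = 0
  · -- singular case: a stable line
    have hsq := guna_sq_eq_zero y hy0 hdet
    obtain ⟨v, hv⟩ : ∃ v : Fin 2 → k, y.mulVec v ≠ 0 := by
      by_contra hcon
      push Not at hcon
      apply hne
      ext i j
      have := congrFun (hcon (Pi.single j 1)) i
      simpa using this
    set u := y.mulVec v with hu
    have hyu : y.mulVec u = 0 := by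
      rw [hu, Matrix.mulVec_mulVec, hsq, Matrix.zero_mulVec]
    refine hline u hv fun g => ?_
    apply guna_ker_line y hne u _ hv hyu
    rw [Matrix.mulVec_mulVec, hadj g, ← Matrix.mulVec_mulVec, hyu, Matrix.mulVec_zero]
  · -- invertible case: `r(G)` is commutative, hence scalar
    have hunit : IsUnit y.det := isUnit_iff_ne_zero.mpr hdet
    have hcomm' : ∀ g h, r g * r h = r h * r g := by
      intro g h
      have h1 := hcomm g h
      have h2 : (r g * r h - r h * r g) * y * y⁻¹ = 0 := by rw [h1, zero_mul]
      rw [mul_assoc, Matrix.mul_nonsing_inv _ hunit, mul_one] at h2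
      exact sub_eq_zero.mp h2
    have hu : (![1, 0] : Fin 2 → k) ≠ 0 := by
      intro h
      have := congrFun h 0
      simp at this
    refine hline _ hu fun g => ?_
    obtain ⟨c, hc⟩ := hschur (r g) (fun h => hcomm' g h)
    refine ⟨c, ?_⟩
    rw [hc, Matrix.smul_mulVec, Matrix.one_mulVec]

/-- Burnside in rank two: the span of `r(G)` is everything. -/
theorem guna_span_top (r : G →* Matrix (Fin 2) (Fin 2) k)
    (hschur : ∀ y : Matrix (Fin 2) (Fin 2) k, (∀ g, y * r g = r g * y) →
      ∃ c : k, y = c • (1 : Matrix (Fin 2) (Fin 2) k))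
    (hline : ∀ u : Fin 2 → k, u ≠ 0 → ¬ ∀ g, ∃ c : k, (r g).mulVec u = c • u) :
    Submodule.span k (Set.range r) = ⊤ := by
  by_contra htop
  obtain ⟨φ, hφ0, hle⟩ := Submodule.exists_le_ker_of_lt_top _ (lt_top_iff_ne_top.mpr htop)
  set y : Matrix (Fin 2) (Fin 2) k := Matrix.of fun i j => φ (Matrix.single j i 1) with hy
  have hφ : ∀ X : Matrix (Fin 2) (Fin 2) k, φ X = (y * X).trace := by
    intro X
    conv_lhs => rw [guna_eq_sum_single X]
    simp only [map_add, map_smul, smul_eq_mul, Matrix.trace_fin_two, Matrix.mul_apply,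
      Fin.sum_univ_two, hy, Matrix.of_apply]
    ring
  have hy0 : y = 0 := by
    apply guna_field_core r hschur hline
    intro g
    rw [← hφ]
    exact hle (Submodule.subset_span ⟨g, rfl⟩)
  apply hφ0
  ext X
  rw [hφ, hy0, zero_mul, Matrix.trace_zero, LinearMap.zero_apply]

end Field

/-! ### Nakayama -/

section Nakayama

variable {T : Type*} [CommRing T] [IsLocalRing T]

/-- if the reductions of a family of `2 × 2` matrices span `M₂(k)` then the family spans
`M₂(T)`. -/
theorem guna_span_top_of_residue (S : Set (Matrix (Fin 2) (Fin 2) T))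
    (h : Submodule.span (IsLocalRing.ResidueField T)
      ((fun X : Matrix (Fin 2) (Fin 2) T => X.map (algebraMap T (IsLocalRing.ResidueField T))) '' S)
        = ⊤) :
    Submodule.span T S = ⊤ := by
  set k := IsLocalRing.ResidueField T
  let π : Matrix (Fin 2) (Fin 2) T →ₗ[T] Matrix (Fin 2) (Fin 2) k :=
    (Algebra.linearMap T k).mapMatrix
  have hπ : ∀ X, π X = X.map (algebraMap T k) := fun X => rfl
  have hsurj : Function.Surjective (algebraMap T k) := IsLocalRing.residue_surjective
  have hmap : Submodule.map π (Submodule.span T S) = ⊤ := by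
    rw [Submodule.map_span]
    have h1 := Submodule.restrictScalars_span T k hsurj (π '' S)
    have h2 : (π '' S) =
        ((fun X : Matrix (Fin 2) (Fin 2) T => X.map (algebraMap T k)) '' S) := rfl
    rw [← h1, h2, h, Submodule.restrictScalars_top]
  have hsup : Submodule.span T S ⊔ LinearMap.ker π = ⊤ := by
    rw [← Submodule.comap_map_eq, hmap, Submodule.comap_top]
  have hker : LinearMap.ker π ≤
      IsLocalRing.maximalIdeal T • (⊤ : Submodule T (Matrix (Fin 2) (Fin 2) T)) := by
    intro X hX
    rw [LinearMap.mem_ker, hπ] at hX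
    have hent : ∀ i j, X i j ∈ IsLocalRing.maximalIdeal T := by
      intro i j
      have := congrFun (congrFun hX i) j
      simp only [Matrix.map_apply, Matrix.zero_apply] at this
      exact (IsLocalRing.residue_eq_zero_iff _).mp this
    rw [guna_eq_sum_single X]
    exact Submodule.add_mem _ (Submodule.add_mem _ (Submodule.add_mem _
      (Submodule.smul_mem_smul (hent 0 0) Submodule.mem_top)
      (Submodule.smul_mem_smul (hent 0 1) Submodule.mem_top))
      (Submodule.smul_mem_smul (hent 1 0) Submodule.mem_top))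
      (Submodule.smul_mem_smul (hent 1 1) Submodule.mem_top)
  have hfg : (⊤ : Submodule T (Matrix (Fin 2) (Fin 2) T)).FG := Module.Finite.fg_top
  refine top_le_iff.mp (Submodule.le_of_le_smul_of_le_jacobson_bot hfg
    (IsLocalRing.maximalIdeal_le_jacobson ⊥) ?_)
  calc (⊤ : Submodule T (Matrix (Fin 2) (Fin 2) T)) = Submodule.span T S ⊔ LinearMap.ker π :=
        hsup.symm
    _ ≤ Submodule.span T S ⊔
        IsLocalRing.maximalIdeal T • (⊤ : Submodule T (Matrix (Fin 2) (Fin 2) T)) :=
        sup_le_sup_left hker _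

end Nakayama

/-! ### no stable line in an absolutely irreducible residual representation -/

theorem guna_no_stable_line {k : Type} [Field k] (ρbar : ResidualGaloisRep k)
    (habs : ρbar.IsAbsolutelyIrreducible) (u : ρbar.V) (hu : u ≠ 0)
    (h : ∀ g : GQ, ∃ c : k, ρbar.ρ g u = c • u) : False := by
  set K := AlgebraicClosure k
  set x : K ⊗[k] ρbar.V := (1 : K) ⊗ₜ[k] u with hx
  have hx0 : x ≠ 0 := by
    intro h0
    apply hu
    have hinj := Module.FaithfullyFlat.tensorProduct_mk_injective (A := k) (B := K) ρbar.V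
    apply hinj
    rw [map_zero]
    exact h0
  have hstab : ∀ σ : GQ, ∀ z ∈ Submodule.span K {x}, (ρbar.baseChange K).ρ σ z ∈
      Submodule.span K {x} := by
    intro σ z hz
    obtain ⟨a, rfl⟩ := Submodule.mem_span_singleton.mp hz
    obtain ⟨c, hc⟩ := h σ
    have h1 : (ρbar.baseChange K).ρ σ x = algebraMap k K c • x := by
      show (ρbar.ρ σ).baseChange K ((1 : K) ⊗ₜ[k] u) = _
      rw [LinearMap.baseChange_tmul, hc, TensorProduct.tmul_smul, algebraMap_smul]
    rw [map_smul, h1]
    exact Submodule.smul_mem _ _ (Submodule.smul_mem _ _ (Submodule.mem_span_singleton_self x))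
  rcases habs _ hstab with hbot | htop
  · apply hx0
    have : x ∈ Submodule.span K {x} := Submodule.mem_span_singleton_self x
    rw [hbot] at this
    exact (Submodule.mem_bot K).mp this
  · have h1 : Module.finrank K (Submodule.span K {x}) = 1 := finrank_span_singleton hx0
    have h2 : Module.finrank K (Submodule.span K {x}) = 2 := by
      rw [htop, finrank_top]
      exact (ρbar.baseChange K).finrank_eq
    omega

/-! ### the residual representation in matrix form -/

theorem guna_resid_span {k : Type} [Field k] (ρbar : ResidualGaloisRep k)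
    (habs : ρbar.IsAbsolutelyIrreducible) (bk : Module.Basis (Fin 2) k ρbar.V)
    (r : GQ →* Matrix (Fin 2) (Fin 2) k)
    (hr' : ∀ g, r g = LinearMap.toMatrix bk bk (ρbar.ρ g)) :
    Submodule.span k (Set.range r) = ⊤ := by
  classical
  -- Schur in matrix form
  have hschur : ∀ y : Matrix (Fin 2) (Fin 2) k, (∀ g, y * r g = r g * y) →
      ∃ c : k, y = c • (1 : Matrix (Fin 2) (Fin 2) k) := by
    intro y hy
    obtain ⟨c, hc⟩ := Fermat.Agent.S53.schur_end ρbar habs (Matrix.toLin bk bk y) (by
      intro σ
      apply (LinearMap.toMatrix bk bk).injective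
      rw [LinearMap.toMatrix_comp bk bk bk, LinearMap.toMatrix_comp bk bk bk,
        LinearMap.toMatrix_toLin, ← hr']
      exact hy σ)
    refine ⟨c, ?_⟩
    have := congrArg (LinearMap.toMatrix bk bk) hc
    rwa [LinearMap.toMatrix_toLin, map_smul, LinearMap.toMatrix_one] at this
  -- no stable line in matrix form
  have hline : ∀ u : Fin 2 → k, u ≠ 0 → ¬ ∀ g, ∃ c : k, (r g).mulVec u = c • u := by
    intro u hu hall
    set v : ρbar.V := bk.equivFun.symm u with hv
    have hvu : (bk.repr v : Fin 2 → k) = u := by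
      have := bk.equivFun.apply_symm_apply u
      rw [← hv] at this
      exact this
    refine guna_no_stable_line ρbar habs v ?_ ?_
    · intro h0
      apply hu
      rw [← hvu, h0, map_zero]
      rfl
    · intro g
      obtain ⟨c, hc⟩ := hall g
      refine ⟨c, ?_⟩
      apply bk.repr.injective
      apply DFunLike.coe_injective
      rw [← LinearMap.toMatrix_mulVec_repr bk bk, ← hr', hvu, hc, map_smul, Finsupp.coe_smul, hvu]
  exact guna_span_top r hschur hline

/-! ### the kernel lemma -/

/-- (A) if the residual representation is absolutely irreducible and `tr ρ(τ g) = tr ρ(g)` for all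
`g`, then `ρ τ = 1`.  (`T`-span of `ρ(G)` is `End_T(V)`: over the residue field by Schur
[`Fermat.Agent.S53.schur_end`] + the classification of subalgebras of `M₂(k)`, then Nakayama; the
trace form of `End_T(V)` is perfect.) -/
theorem gun_eq_one_of_trace {T : Type} [CommRing T] [IsLocalRing T] (ρ : GaloisRepAdic T)
    (habs : ρ.residual.IsAbsolutelyIrreducible) (τ : GQ)
    (h : ∀ g : GQ, LinearMap.trace T ρ.V (ρ.ρ (τ * g)) = LinearMap.trace T ρ.V (ρ.ρ g)) :
    ρ.ρ τ = 1 := by
  classical
  let b : Module.Basis (Fin 2) T ρ.V := Module.finBasisOfFinrankEq T ρ.V ρ.finrank_eq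
  let bk : Module.Basis (Fin 2) (IsLocalRing.ResidueField T) ρ.residual.V :=
    Algebra.TensorProduct.basis (IsLocalRing.ResidueField T) b
  -- the matrix representations
  let R : GQ →* Matrix (Fin 2) (Fin 2) T :=
    ((LinearMap.toMatrixAlgEquiv b : Module.End T ρ.V ≃ₐ[T] Matrix (Fin 2) (Fin 2) T) :
      Module.End T ρ.V →* Matrix (Fin 2) (Fin 2) T).comp ρ.ρ
  have hR : ∀ g, R g = LinearMap.toMatrix b b (ρ.ρ g) := fun g => rfl
  let r : GQ →* Matrix (Fin 2) (Fin 2) (IsLocalRing.ResidueField T) :=
    ((RingHom.mapMatrix (algebraMap T (IsLocalRing.ResidueField T)) :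
        Matrix (Fin 2) (Fin 2) T →+* Matrix (Fin 2) (Fin 2) (IsLocalRing.ResidueField T)) :
      Matrix (Fin 2) (Fin 2) T →* Matrix (Fin 2) (Fin 2) (IsLocalRing.ResidueField T)).comp R
  have hr : ∀ g, r g = (R g).map (algebraMap T (IsLocalRing.ResidueField T)) := fun g => rfl
  have hr' : ∀ g, r g = LinearMap.toMatrix bk bk (ρ.residual.ρ g) := by
    intro g
    rw [hr, hR]
    exact (LinearMap.toMatrix_baseChange (IsLocalRing.ResidueField T) (ρ.ρ g) b b).symm
  -- the span
  have hspan_k : Submodule.span (IsLocalRing.ResidueField T) (Set.range r) = ⊤ :=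
    guna_resid_span ρ.residual habs bk r hr'
  have hspan : Submodule.span T (Set.range R) = ⊤ := by
    apply guna_span_top_of_residue
    have e : ((fun X : Matrix (Fin 2) (Fin 2) T =>
        X.map (algebraMap T (IsLocalRing.ResidueField T))) '' Set.range R) = Set.range r := by
      ext X
      constructor
      · rintro ⟨_, ⟨g, rfl⟩, rfl⟩
        exact ⟨g, rfl⟩
      · rintro ⟨g, rfl⟩
        exact ⟨R g, ⟨g, rfl⟩, rfl⟩
    rw [e]
    exact hspan_k
  -- the trace form
  set X : Matrix (Fin 2) (Fin 2) T := R τ - 1 with hX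
  have hXg : ∀ g, (X * R g).trace = 0 := by
    intro g
    have h1 := h g
    rw [LinearMap.trace_eq_matrix_trace T b, LinearMap.trace_eq_matrix_trace T b, ← hR, ← hR,
      map_mul] at h1
    rw [hX, sub_mul, one_mul, Matrix.trace_sub, h1, sub_self]
  have hXY : ∀ Y : Matrix (Fin 2) (Fin 2) T, (X * Y).trace = 0 := by
    intro Y
    have hY : Y ∈ Submodule.span T (Set.range R) := by rw [hspan]; trivial
    induction hY using Submodule.span_induction with
    | mem Y hY =>
      obtain ⟨g, rfl⟩ := hY
      exact hXg g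
    | zero => rw [mul_zero, Matrix.trace_zero]
    | add Y Z _ _ hY hZ => rw [mul_add, Matrix.trace_add, hY, hZ, add_zero]
    | smul a Y _ hY => rw [Matrix.mul_smul, Matrix.trace_smul, hY, smul_zero]
  have hX0 : X = 0 := by
    ext i j
    rw [← guna_trace_mul_single X i j, hXY]
    rfl
  have hRτ : R τ = 1 := sub_eq_zero.mp hX0
  apply (LinearMap.toMatrix b b).injective
  rw [← hR, hRτ, LinearMap.toMatrix_one]

end Fermat.Agent.G
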