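import Mathlib

/-!
# Program G, package Unr (S31), row G-UNR-E1: the saturation exponent (pure algebra)

A subgroup `B` of a finitely generated `ℤ`-module `M` has a uniform exponent for the torsion of
`M / B`: the saturation `{u | ∃ k > 0, k u ∈ B}` is a finitely generated subgroup, and the product of
the exponents of finitely many generators works for all of it.
-/

set_option autoImplicit false

noncomputable section

namespace Fermat.Agent.G

/-- the saturation of a subgroup, as a `ℤ`-submodule. -/
def gunsSat {M : Type*} [AddCommGroup M] (B : AddSubgroup M) : Submodule ℤ M where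
  carrier := {u | ∃ k : ℕ, 0 < k ∧ k • u ∈ B}
  zero_mem' := ⟨1, one_pos, by rw [smul_zero]; exact B.zero_mem⟩
  add_mem' := by
    rintro u v ⟨k, hk, hu⟩ ⟨k', hk', hv⟩
    refine ⟨k' * k, Nat.mul_pos hk' hk, ?_⟩
    have h1 : (k' * k) • (u + v) = k' • (k • u) + k • (k' • v) := by
      rw [smul_add, mul_smul, mul_comm k' k, mul_smul]
    rw [h1]
    exact B.add_mem (B.nsmul_mem hu k') (B.nsmul_mem hv k)
  smul_mem' := by
    rintro a u ⟨k, hk, hu⟩
    refine ⟨k, hk, ?_⟩
    rw [smul_comm]
    exact B.zsmul_mem hu a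

theorem guns_mem_sat {M : Type*} [AddCommGroup M] (B : AddSubgroup M) (u : M) :
    u ∈ gunsSat B ↔ ∃ k : ℕ, 0 < k ∧ k • u ∈ B := Iff.rfl

/-- (E1) saturation exponent (pure algebra): a submodule `B` of a finitely generated `ℤ`-module
has a uniform exponent for the torsion of `M / B`. -/
theorem gun_saturation {M : Type*} [AddCommGroup M] [Module.Finite ℤ M] (B : AddSubgroup M) :
    ∃ c₀ : ℕ, 0 < c₀ ∧ ∀ (u : M) (k : ℕ), 0 < k → k • u ∈ B → c₀ • u ∈ B := by
  classical
  have hN : IsNoetherian ℤ M := isNoetherian_of_isNoetherianRing_of_finite ℤ M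
  obtain ⟨s, hs⟩ : (gunsSat B).FG := IsNoetherian.noetherian (gunsSat B)
  have hk : ∀ g : M, ∃ k : ℕ, 0 < k ∧ (g ∈ s → k • g ∈ B) := by
    intro g
    by_cases hg : g ∈ s
    · have hgS : g ∈ gunsSat B := by
        rw [← hs]
        exact Submodule.subset_span hg
      obtain ⟨k, hk0, hkB⟩ := hgS
      exact ⟨k, hk0, fun _ => hkB⟩
    · exact ⟨1, one_pos, fun h => absurd h hg⟩
  choose k hkpos hkB using hk
  refine ⟨∏ g ∈ s, k g, Finset.prod_pos fun g _ => hkpos g, ?_⟩
  have hall : ∀ u ∈ gunsSat B, (∏ g ∈ s, k g) • u ∈ B := by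
    intro u hu
    rw [← hs] at hu
    induction hu using Submodule.span_induction with
    | mem g hg =>
      have hg' : g ∈ s := hg
      rw [← Finset.mul_prod_erase s k hg', mul_comm, mul_smul]
      exact B.nsmul_mem (hkB g hg') _
    | zero => rw [smul_zero]; exact B.zero_mem
    | add x y _ _ hx hy => rw [smul_add]; exact B.add_mem hx hy
    | smul a x _ hx => rw [smul_comm]; exact B.zsmul_mem hx a
  intro u k' hk' hu
  exact hall u ⟨k', hk', hu⟩

end Fermat.Agent.G
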