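import Mathlib
import Fermat.Agent.G.Unr.Defs
import Fermat.Agent.G.Unr.Saturation
import Fermat.Agent.G.Per.Period
import Fermat.Agent.G.Per.Fg

/-!
# Program G, package Unr, row (E) : the lattice argument `gun_lattice`

ABSTRACT FORM (`gunl_lattice_abstract`).  `H` a finitely generated abelian group, `V` a `ℂ`-vector
space, `per : V →ₗ[ℂ] (H →+ ℂ)` injective.  The PERIOD LATTICE is the image `Λ` of
`ev : H → V^*`, `ev h f = per f h`, a finitely generated torsion free, hence finite free,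
`ℤ`-module.  The STABILISER `CC = {y ∈ End_ℂ V | Λ ∘ y ⊆ Λ}` embeds into `End_ℤ Λ` (because `per`
is injective), so it is a finitely generated `ℤ`-module, and saturation (E1) applies to
`BB = CC ∩ 𝕋`.  If `x ∈ 𝕋` corresponds to `e ∈ End H` (`per (x f) = per f ∘ e`), then
`ev h ∘ x = ev (e h)`, so `x ∈ CC`; if moreover `χ ∘ e = 0` for all `χ : H → ℤ/p^m` killing `PE`
(on which all periods vanish), then, testing with `χ = (coordinate of Λ) ∘ ev mod p^m`,
`Λ ∘ x ⊆ p^m Λ`, i.e. `y = x / p^m ∈ CC`, `p^m y = x ∈ BB`, hence `c₀ y ∈ 𝕋`.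
-/

set_option autoImplicit false

noncomputable section

namespace Fermat.Agent.G

open CongruenceSubgroup ModularCurve AlgebraicCurve Fermat.Agent.S16LB Polynomial

section Abstract

/-- an element of a finite free `ℤ`-module all of whose coordinates are divisible by `n` is
divisible by `n`. -/
theorem gunl_exists_of_dvd {M : Type*} [AddCommGroup M] [Module.Free ℤ M] [Module.Finite ℤ M]
    (n : ℕ) (v : M) (h : ∀ φ : M →ₗ[ℤ] ℤ, (n : ℤ) ∣ φ v) : ∃ μ : M, v = n • μ := by
  classical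
  let b := Module.Free.chooseBasis ℤ M
  choose k hk using fun i => h (b.coord i)
  refine ⟨∑ i, k i • b i, ?_⟩
  rw [Finset.smul_sum]
  conv_lhs => rw [← b.sum_repr v]
  refine Finset.sum_congr rfl fun i _ => ?_
  have h1 : b.repr v i = (n : ℤ) * k i := hk i
  rw [h1, mul_smul, natCast_zsmul]

/-- cancellation of a nonzero natural scalar in a complex vector space. -/
theorem gunl_nsmul_cancel {W : Type*} [AddCommGroup W] [Module ℂ W] {n : ℕ} (hn : n ≠ 0)
    {a b : W} (h : n • a = n • b) : a = b := by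
  rw [← Nat.cast_smul_eq_nsmul ℂ, ← Nat.cast_smul_eq_nsmul ℂ] at h
  exact smul_right_injective W (Nat.cast_ne_zero.mpr hn) h

variable {H V : Type*} [AddCommGroup H] [AddCommGroup V] [Module ℂ V]

/-- evaluation at `h`: the functional `f ↦ per f h`. -/
def gunlEv (per : V →ₗ[ℂ] (H →+ ℂ)) : H →ₗ[ℤ] Module.Dual ℂ V :=
  AddMonoidHom.toIntLinearMap
    { toFun := fun h =>
        { toFun := fun f => per f h
          map_add' := fun f g => by rw [map_add, AddMonoidHom.add_apply]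
          map_smul' := fun c f => by
            rw [map_smul, AddMonoidHom.smul_apply, RingHom.id_apply] }
      map_zero' := by
        ext f
        exact map_zero (per f)
      map_add' := fun h h' => by
        ext f
        exact map_add (per f) h h' }

theorem gunlEv_apply (per : V →ₗ[ℂ] (H →+ ℂ)) (h : H) (f : V) : gunlEv per h f = per f h := rfl

/-- the period lattice in the dual of `V`. -/
def gunlLat (per : V →ₗ[ℂ] (H →+ ℂ)) : Submodule ℤ (Module.Dual ℂ V) :=
  LinearMap.range (gunlEv per)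

/-- the stabiliser of the period lattice. -/
def gunlStab (per : V →ₗ[ℂ] (H →+ ℂ)) : Submodule ℤ (Module.End ℂ V) where
  carrier := {y | ∀ l ∈ gunlLat per, l ∘ₗ y ∈ gunlLat per}
  zero_mem' := fun l _ => by
    rw [LinearMap.comp_zero]
    exact zero_mem _
  add_mem' := fun {y y'} hy hy' l hl => by
    rw [LinearMap.comp_add]
    exact add_mem (hy l hl) (hy' l hl)
  smul_mem' := fun n y hy l hl => by
    have h1 : l ∘ₗ (n • y) = n • (l ∘ₗ y) := by
      ext f
      rw [LinearMap.comp_apply, LinearMap.smul_apply, LinearMap.smul_apply, map_zsmul,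
        LinearMap.comp_apply]
    rw [h1]
    exact Submodule.smul_mem _ n (hy l hl)

/-- the projection of `H` onto the period lattice. -/
def gunlProj (per : V →ₗ[ℂ] (H →+ ℂ)) : H →ₗ[ℤ] gunlLat per := (gunlEv per).rangeRestrict

theorem gunlProj_coe (per : V →ₗ[ℂ] (H →+ ℂ)) (h : H) :
    ((gunlProj per h : gunlLat per) : Module.Dual ℂ V) = gunlEv per h := rfl

theorem gunl_mem_stab (per : V →ₗ[ℂ] (H →+ ℂ)) (y : Module.End ℂ V) :
    y ∈ gunlStab per ↔ ∀ l ∈ gunlLat per, l ∘ₗ y ∈ gunlLat per := Iff.rfl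

/-- the action of the stabiliser on the lattice. -/
def gunlPhi (per : V →ₗ[ℂ] (H →+ ℂ)) :
    gunlStab per →ₗ[ℤ] (gunlLat per →ₗ[ℤ] gunlLat per) where
  toFun y :=
    { toFun := fun l => ⟨(l : Module.Dual ℂ V) ∘ₗ (y : Module.End ℂ V), y.2 l l.2⟩
      map_add' := fun l l' => Subtype.ext (by
        show ((l + l' : gunlLat per) : Module.Dual ℂ V) ∘ₗ (y : Module.End ℂ V) = _
        rw [Submodule.coe_add, LinearMap.add_comp]
        rfl)
      map_smul' := fun n l => Subtype.ext (by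
        show ((n • l : gunlLat per) : Module.Dual ℂ V) ∘ₗ (y : Module.End ℂ V) = _
        rw [Submodule.coe_smul]
        ext f
        rfl) }
  map_add' := fun y y' => by
    ext l f
    show (l : Module.Dual ℂ V) (((y + y' : gunlStab per) : Module.End ℂ V) f)
      = (l : Module.Dual ℂ V) (y.1 f) + (l : Module.Dual ℂ V) (y'.1 f)
    rw [Submodule.coe_add, LinearMap.add_apply, map_add]
  map_smul' := fun n y => by
    ext l f
    show (l : Module.Dual ℂ V) ((n • (y : Module.End ℂ V)) f) = n • (l : Module.Dual ℂ V) (y.1 f)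
    rw [LinearMap.smul_apply, map_zsmul]

theorem gunlPhi_injective (per : V →ₗ[ℂ] (H →+ ℂ)) (hper : Function.Injective per) :
    Function.Injective (gunlPhi per) := by
  rw [← LinearMap.ker_eq_bot, LinearMap.ker_eq_bot']
  intro y hy
  apply Subtype.ext
  refine LinearMap.ext fun f => ?_
  apply hper
  rw [Submodule.coe_zero, LinearMap.zero_apply, map_zero]
  refine AddMonoidHom.ext fun h => ?_
  have h1 := congrArg (fun u : gunlLat per →ₗ[ℤ] gunlLat per =>
    ((u ⟨gunlEv per h, ⟨h, rfl⟩⟩ : gunlLat per) : Module.Dual ℂ V) f) hy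
  exact h1

/-- **the lattice argument, abstract form.** -/
theorem gunl_lattice_abstract [Module.Finite ℤ H] (per : V →ₗ[ℂ] (H →+ ℂ))
    (hper : Function.Injective per) (PE : Set H) (hPE : ∀ f, ∀ h ∈ PE, per f h = 0)
    (T : AddSubgroup (Module.End ℂ V)) (p : ℕ) (hp : p.Prime) :
    ∃ c c₁ : ℕ, c₁.Coprime p ∧ ∀ (m : ℕ) (x : Module.End ℂ V) (e : H →+ H), x ∈ T →
      (∀ f, per (x f) = (per f).comp e) →
      (∀ χ : H →+ ZMod (p ^ m), (∀ h ∈ PE, χ h = 0) → χ.comp e = 0) →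
      ∃ w ∈ T, c₁ • x = p ^ (m - c) • w := by
  classical
  have : Module.IsTorsionFree ℤ (Module.Dual ℂ V) := Module.IsTorsionFree.trans (R := ℂ)
  have : Module.Finite ℤ (gunlLat per) := Module.Finite.range _
  have : Module.Free ℤ (gunlLat per) := Module.free_of_finite_type_torsion_free'
  have : Module.Finite ℤ (gunlLat per →ₗ[ℤ] gunlLat per) := Module.Finite.linearMap ℤ ℤ _ _
  have : IsNoetherian ℤ (gunlLat per →ₗ[ℤ] gunlLat per) :=
    isNoetherian_of_isNoetherianRing_of_finite ℤ _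
  have : Module.Finite ℤ (gunlStab per) :=
    Module.Finite.of_injective (gunlPhi per) (gunlPhi_injective per hper)
  obtain ⟨c₀, hc₀, hsat⟩ :=
    gun_saturation (T.comap (gunlStab per).subtype.toAddMonoidHom)
  have hc₀eq : p ^ c₀.factorization p * (c₀ / p ^ c₀.factorization p) = c₀ :=
    Nat.ordProj_mul_ordCompl_eq_self c₀ p
  refine ⟨c₀.factorization p, c₀ / p ^ c₀.factorization p,
    (Nat.coprime_ordCompl hp hc₀.ne').symm, ?_⟩
  intro m x e hxT hcorr hχ
  have hpm : p ^ m ≠ 0 := pow_ne_zero _ hp.ne_zero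
  have hpmC : ((p ^ m : ℕ) : ℂ) ≠ 0 := Nat.cast_ne_zero.mpr hpm
  -- `x` maps `ev h` to `ev (e h)`
  have hx1 : ∀ h : H, (gunlEv per h) ∘ₗ x = gunlEv per (e h) := by
    intro h
    ext f
    rw [LinearMap.comp_apply, gunlEv_apply, gunlEv_apply, hcorr f]
    rfl
  -- `ev (e h)` is divisible by `p ^ m` in the lattice
  have hdiv : ∀ h : H, ∃ μ ∈ gunlLat per, gunlEv per (e h) = (p ^ m) • μ := by
    intro h
    obtain ⟨μ, hμ⟩ := gunl_exists_of_dvd (M := gunlLat per) (p ^ m)
      (gunlProj per (e h)) (fun φ => by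
        have h0 := hχ ((Int.castAddHom (ZMod (p ^ m))).comp
          (φ.toAddMonoidHom.comp (gunlProj per).toAddMonoidHom)) (fun h' hh' => by
            have hz : gunlProj per h' = 0 := by
              apply Subtype.ext
              refine LinearMap.ext fun f => ?_
              exact hPE f h' hh'
            show ((φ (gunlProj per h') : ℤ) : ZMod (p ^ m)) = 0
            rw [hz, map_zero, Int.cast_zero])
        have h1 := DFunLike.congr_fun h0 h
        exact (ZMod.intCast_zmod_eq_zero_iff_dvd _ _).1 h1)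
    refine ⟨μ, μ.2, ?_⟩
    have := congrArg (Subtype.val) hμ
    exact this
  -- `y = x / p ^ m` stabilises the lattice
  have hy : ((p ^ m : ℕ) : ℂ)⁻¹ • x ∈ gunlStab per := by
    rintro l ⟨h, rfl⟩
    obtain ⟨μ, hμ, hμe⟩ := hdiv h
    have h2 : (gunlEv per h) ∘ₗ (((p ^ m : ℕ) : ℂ)⁻¹ • x) = μ := by
      rw [LinearMap.comp_smul, hx1 h, hμe, ← Nat.cast_smul_eq_nsmul ℂ, inv_smul_smul₀ hpmC]
    rw [h2]
    exact hμ
  have hpy : (p ^ m) • (((p ^ m : ℕ) : ℂ)⁻¹ • x) = x := by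
    rw [← Nat.cast_smul_eq_nsmul ℂ, smul_inv_smul₀ hpmC]
  have hw₀ : c₀ • (((p ^ m : ℕ) : ℂ)⁻¹ • x) ∈ T := by
    have h3 := hsat ⟨_, hy⟩ (p ^ m) (Nat.pos_of_ne_zero hpm) (by
      show ((gunlStab per).subtype.toAddMonoidHom ((p ^ m) • (⟨_, hy⟩ : gunlStab per))) ∈ T
      rw [map_nsmul]
      show (p ^ m) • (((p ^ m : ℕ) : ℂ)⁻¹ • x) ∈ T
      rw [hpy]
      exact hxT)
    have h4 : ((gunlStab per).subtype.toAddMonoidHom (c₀ • (⟨_, hy⟩ : gunlStab per))) ∈ T := h3
    rw [map_nsmul] at h4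
    exact h4
  have hkey : (p ^ m) • (c₀ • (((p ^ m : ℕ) : ℂ)⁻¹ • x)) = c₀ • x := by
    rw [smul_comm, hpy]
  by_cases hmc : c₀.factorization p ≤ m
  · refine ⟨_, hw₀, ?_⟩
    apply gunl_nsmul_cancel (pow_ne_zero (c₀.factorization p) hp.ne_zero)
    rw [← mul_smul, hc₀eq, ← mul_smul, ← pow_add, Nat.add_sub_cancel' hmc, hkey]
  · refine ⟨_, T.nsmul_mem hxT (c₀ / p ^ c₀.factorization p), ?_⟩
    rw [Nat.sub_eq_zero_of_le (le_of_not_ge hmc), pow_zero, one_smul]

end Abstract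

section Concrete

local notation "Qb" => AlgebraicClosure ℚ
local notation "GQ" => (AlgebraicClosure ℚ ≃ₐ[ℚ] AlgebraicClosure ℚ)

/-- the period map `f ↦ per f : Γ₀(N)^ab → ℂ`, as a `ℂ`-linear map. -/
def gunlPer (N : ℕ) [NeZero N] : CuspForm (Gamma0 N) 2 →ₗ[ℂ] (s16lbAb N →+ ℂ) where
  toFun f := s16lbDesc (periodMap N f)
  map_add' f g := by
    rw [← Fermat.Agent.S21.pml_apply, map_add, s16lbDesc_add]
    rfl
  map_smul' c f := by
    rw [gprp_periodMap_smul, gprp_desc_smul]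
    rfl

theorem gunlPer_apply (N : ℕ) [NeZero N] (f : CuspForm (Gamma0 N) 2) :
    gunlPer N f = s16lbDesc (periodMap N f) := rfl

theorem gunlPer_injective (N : ℕ) [NeZero N] : Function.Injective (gunlPer N) := by
  rw [← LinearMap.ker_eq_bot, LinearMap.ker_eq_bot']
  intro f hf
  by_contra hne
  exact gprp_desc_ne_zero (gprp_periodMap_ne_zero N hne) hf

theorem gunlPer_mem_homPE (N : ℕ) [NeZero N] (f : CuspForm (Gamma0 N) 2) :
    gunlPer N f ∈ gprHomPE N ℂ :=
  gpr_mem_homPE_of_parabolic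
    (ModularCurve.Period.mem_parabolicHoms_iff.mp
      (Fermat.Agent.S21.periodMap_mem_parabolicHoms N f))

/-- (E) there are `c, c₁` (depending only on `N, S, p`) with `p ∤ c₁` such that: if the Hecke
operator `x` corresponds to `e ∈ End(Γ₀(N)^ab)` and `χ ∘ e = 0` for all
`χ ∈ Hom_pe(Γ₀(N), ℤ/p^m)`, then `c₁ x ∈ p^(m-c) 𝕋`. -/
theorem gun_lattice (N : ℕ) [NeZero N] (S : Set ℕ) (p : ℕ) (hp : p.Prime) :
    ∃ c c₁ : ℕ, c₁.Coprime p ∧
      ∀ (m : ℕ) (x : CuspForm.heckeAlgebra N 2 S) (e : AddMonoid.End (s16lbAb N)),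
        GunCorr N (x : Module.End ℂ (CuspForm (Gamma0 N) 2)) e →
        (∀ χ ∈ gprHomPE N (ZMod (p ^ m)), χ.comp e = 0) →
        ∃ w : CuspForm.heckeAlgebra N 2 S, c₁ • x = p ^ (m - c) • w := by
  have : Module.Finite ℤ (s16lbAb N) := Module.Finite.iff_addGroup_fg.mpr (gpr_ab_fg N)
  obtain ⟨c, c₁, hcop, H⟩ := gunl_lattice_abstract (gunlPer N) (gunlPer_injective N)
    {h | ∃ γ : Gamma0 N, gprIsPE γ ∧ s16lbCls N (Additive.ofMul γ) = h}
    (fun f h hh => by
      obtain ⟨γ, hγ, rfl⟩ := hh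
      exact gunlPer_mem_homPE N f γ hγ)
    (CuspForm.heckeAlgebra N 2 S).toSubmodule.toAddSubgroup p hp
  refine ⟨c, c₁, hcop, fun m x e hcorr hχ => ?_⟩
  obtain ⟨w, hw, hxw⟩ := H m (x : Module.End ℂ (CuspForm (Gamma0 N) 2)) e x.2
    (fun f => hcorr f)
    (fun χ hχPE => hχ χ (fun γ hγ => hχPE _ ⟨γ, hγ, rfl⟩))
  refine ⟨⟨w, hw⟩, Subtype.ext ?_⟩
  rw [AddSubmonoidClass.coe_nsmul, AddSubmonoidClass.coe_nsmul]
  exact hxw

end Concrete

end Fermat.Agent.G
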