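import Mathlib
import Fermat.Agent.G.Unr.Defs
import Fermat.Agent.G.Kum.Theta

/-!
# Program G, package Unr : the input `gun_theta` from `gkt_theta` (G/Kum/Theta.lean, helper29)

Pure glue: `gasmPEHoms N A = gprHomPE N A` and `gasmTr N ℓ h = gprT N ℓ`.
-/

set_option autoImplicit false

noncomputable section

namespace Fermat.Agent.G

open CongruenceSubgroup ModularCurve AlgebraicCurve Fermat.Agent.S16LB Polynomial

theorem gunth_le (N : ℕ) (A : Type*) [AddCommGroup A] : gprHomPE N A ≤ gasmPEHoms N A :=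
  fun _ hχ γ hγ => hχ γ hγ

/-- (THETA-n) -/
theorem gun_theta (N : ℕ) [NeZero N] (n : ℕ) (hn : 0 < n) :
    ∃ Θ : gprHomPE N (ZMod n) →+ JZero N, Function.Injective Θ ∧
      ∀ (ℓ : ℕ) (hℓ : ℓ.Prime) (_ : ¬ ℓ ∣ N) (_ : ¬ ℓ ∣ n) (χ χ' : gprHomPE N (ZMod n)),
        (χ' : s16lbAb N →+ ZMod n) = (χ : s16lbAb N →+ ZMod n).comp (gprT N ℓ) →
          Θ χ' = heckeOperatorBar N ⟨ℓ, hℓ⟩ (Θ χ) := by
  obtain ⟨Θ, hinj, -, hΘ⟩ := gkt_theta N n hn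
  refine ⟨Θ.comp (AddSubgroup.inclusion (gunth_le N (ZMod n))),
    hinj.comp (AddSubgroup.inclusion_injective (gunth_le N (ZMod n))), fun ℓ hℓ hℓN hℓn χ χ' h => ?_⟩
  have : Fact ℓ.Prime := ⟨hℓ⟩
  rw [AddMonoidHom.comp_apply, AddMonoidHom.comp_apply]
  refine hΘ ℓ hℓN hℓn _ _ ?_
  rw [AddSubgroup.coe_inclusion, AddSubgroup.coe_inclusion, h, gprT_eq N hℓN]
  rfl

end Fermat.Agent.G
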