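import Mathlib
import Fermat.Agent.G.Unr.Defs

/-!
# Program G, package Unr (S31), row G-UNR-C: traces of powers in rank two

`charpoly A = X² - t X + d` ⟹ `tr (A^b) = V_b(t, d)` (the Lucas sequence `gunLuc`).
-/

set_option autoImplicit false

noncomputable section

namespace Fermat.Agent.G

open CongruenceSubgroup ModularCurve AlgebraicCurve Fermat.Agent.S16LB Polynomial

/-- the degree of `X² - t X + d`. -/
theorem gunc_natDegree {T : Type*} [CommRing T] [Nontrivial T] (t c : T) :
    (X ^ 2 - C t * X + C c : T[X]).natDegree = 2 := by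
  compute_degree!

/-- the coefficient of `X` in `X² - t X + d`. -/
theorem gunc_coeff_one {T : Type*} [CommRing T] (t c : T) :
    (X ^ 2 - C t * X + C c : T[X]).coeff 1 = -t := by
  simp [coeff_X_pow, coeff_C]

/-- (C) in rank two, `charpoly A = X² - t X + d` ⟹ `tr (A^b) = V_b(t, d)`. -/
theorem gun_trace_pow {T : Type*} [CommRing T] [Nontrivial T] {V : Type*} [AddCommGroup V]
    [Module T V] [Module.Free T V] [Module.Finite T V] (A : Module.End T V) (t : T) (d : ℤ)
    (h : LinearMap.charpoly A = X ^ 2 - C t * X + C (d : T)) (b : ℕ) :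
    LinearMap.trace T V (A ^ b) = gunLuc t d b := by
  -- rank two
  have hrank : Module.finrank T V = 2 := by
    rw [← LinearMap.charpoly_natDegree A, h, gunc_natDegree]
  -- trace of `A`
  have htr : LinearMap.trace T V A = t := by
    rw [LinearMap.trace_eq_matrix_trace T (Module.Free.chooseBasis T V) A,
      Matrix.trace_eq_neg_charpoly_nextCoeff, ← LinearMap.charpoly_def, h, nextCoeff,
      gunc_natDegree, if_neg (by norm_num), gunc_coeff_one, neg_neg]
  -- Cayley-Hamilton
  have hCH : A ^ 2 = t • A - (d : T) • (1 : Module.End T V) := by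
    have h0 := LinearMap.aeval_self_charpoly A
    rw [h] at h0
    simp only [map_add, map_sub, map_mul, map_pow, aeval_X, aeval_C] at h0
    rw [Algebra.algebraMap_eq_smul_one, Algebra.algebraMap_eq_smul_one, smul_mul_assoc,
      one_mul] at h0
    rw [← sub_eq_zero, ← h0]
    abel
  -- the recursion for traces
  have hrec : ∀ b : ℕ, LinearMap.trace T V (A ^ (b + 2)) =
      t * LinearMap.trace T V (A ^ (b + 1)) - (d : T) * LinearMap.trace T V (A ^ b) := by
    intro b
    rw [pow_add, hCH, mul_sub, mul_smul_comm, mul_smul_comm, mul_one, ← pow_succ, map_sub,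
      map_smul, map_smul, smul_eq_mul, smul_eq_mul]
  -- two-step induction
  have key : ∀ b : ℕ, LinearMap.trace T V (A ^ b) = gunLuc t d b ∧
      LinearMap.trace T V (A ^ (b + 1)) = gunLuc t d (b + 1) := by
    intro b
    induction b with
    | zero =>
      refine ⟨?_, ?_⟩
      · rw [pow_zero, LinearMap.trace_one, hrank, gunLuc_zero]
        norm_num
      · rw [zero_add, pow_one, htr, gunLuc_one]
    | succ b ih =>
      refine ⟨ih.2, ?_⟩
      rw [hrec b, ih.1, ih.2, gunLuc_succ_succ, zsmul_eq_mul]
  exact (key b).1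

end Fermat.Agent.G
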