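import Mathlib
import Fermat.Agent.G.Unr.Defs
import Fermat.Agent.G.Unr.Theta
import Fermat.Agent.G.Unr.Kernel
import Fermat.Agent.G.Unr.TracePow
import Fermat.Agent.G.Unr.Cyc
import Fermat.Agent.G.Unr.LucTorsion
import Fermat.Agent.G.Unr.ThetaLuc
import Fermat.Agent.G.Unr.HeckeCongr
import Fermat.Agent.G.Unr.Saturation
import Fermat.Agent.G.Unr.Lattice

/-!
# Program G, package Unr : SPEC for S31 (black boxes = `sorry` leaves; every one is a row)

S31: in a Hecke–Galois datum `H` of level `N` away from `S` (`p ∈ S`, primes of `N` in `S`) the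
representation `H.ρ` over `T` is unramified at every prime `q ∉ S`.

ROUTE (finite level, no Tate module).  `t := tr H.ρ`.
* (A) residual absolute irreducibility ⟹ `ρ τ = 1` as soon as `t (τ g) = t g` for all `g`.
* `T` is `𝔪`-adically separated, so it is enough to show `t (τ h) - t h ∈ 𝔪^n` for all `n`.
* weak Frobenius density (S56/Frob/Hom) at `τ h` and at `h` for a finite normal level `E`:
  Frobenius lifts `φ, φ'` at `ℓ, ℓ' ∉ S` and exponents `b, b'` with `φ^b ∈ τ h G_E`, `φ'^b' ∈ h G_E`.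
  (C) `t (φ^b) = V_b(π T_ℓ, ℓ)` (Lucas).
* (D) on `J₀(N)[p^∞]`: `V_b(T_ℓ, ℓ) = φ^b + ℓ^b φ^{-b}`; on `X_m = Θ(Hom_pe(Γ₀(N), ℤ/p^m))` this is
  `h + c(h) h⁻¹` (inertia at `q ∤ N p` acts trivially, `G_E` fixes `G_ℚ · X_m` and `μ_{p^m}`),
  the same for `(ℓ', b')`; `Θ` injective and equivariant ⟹
  `χ ∘ V_b(tr_ℓ, ℓ) = χ ∘ V_b'(tr_ℓ', ℓ')` for all `χ ∈ Hom_pe(Γ₀(N), ℤ/p^m)`.
* (E) lattice argument: `c₁ (V_b(T_ℓ, ℓ) - V_b'(T_ℓ', ℓ')) ∈ p^(m-c) 𝕋` with `c, c₁` depending only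
  on `N, S, p` and `p ∤ c₁`.  Apply `π`: the difference of traces lies in `𝔪_T^(m-c)`.

INPUT FROM G/Kum + G/Desc : `gun_theta` (= `gasm_theta` for a general modulus `n`).
-/
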