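import Mathlib
import Fermat.Agent.G.Unr.Spec
import Fermat.Agent.G.Unr.Corr
import Fermat.Agent.S56.Frob.Hom

/-!
# Program G, package Unr : assembly of S31 from the leaves of `Spec.lean`
-/

set_option autoImplicit false
set_option linter.unusedSectionVars false

noncomputable section

namespace Fermat.Agent.G

open CongruenceSubgroup ModularCurve AlgebraicCurve Fermat.Agent.S16LB Polynomial

local notation "Qb" => AlgebraicClosure ℚ
local notation "GQ" => (AlgebraicClosure ℚ ≃ₐ[ℚ] AlgebraicClosure ℚ)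

/-! ### small lemmas -/

/-- the trace of an endomorphism with image in `I • V` lies in `I`. -/
theorem gunm_trace_mem {T : Type*} [CommRing T] {V : Type*} [AddCommGroup V] [Module T V]
    [Module.Free T V] [Module.Finite T V] (I : Ideal T) (f : Module.End T V)
    (hf : ∀ v, f v ∈ I • (⊤ : Submodule T V)) : LinearMap.trace T V f ∈ I := by
  classical
  set b := Module.Free.chooseBasis T V with hb
  rw [LinearMap.trace_eq_matrix_trace T b, Matrix.trace]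
  refine Ideal.sum_mem _ fun i _ => ?_
  rw [Matrix.diag_apply, LinearMap.toMatrix_apply]
  have key : ∀ w ∈ I • (⊤ : Submodule T V), b.repr w i ∈ I := by
    intro w hw
    refine Submodule.smul_induction_on hw ?_ ?_
    · intro a ha v _
      rw [map_smul, Finsupp.smul_apply, smul_eq_mul]
      exact Ideal.mul_mem_right _ _ ha
    · intro x y hx hy
      rw [map_add, Finsupp.add_apply]
      exact Ideal.add_mem _ hx hy
  exact key _ (hf _)

/-- a natural number prime to `p` is a unit in a local ring whose maximal ideal contains `p`. -/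
theorem gunm_isUnit_natCast {T : Type*} [CommRing T] [IsLocalRing T] {p c : ℕ}
    (hp : (p : T) ∈ IsLocalRing.maximalIdeal T) (hc : c.Coprime p) : IsUnit (c : T) := by
  by_contra hnu
  have hcm : (c : T) ∈ IsLocalRing.maximalIdeal T := (IsLocalRing.mem_maximalIdeal _).mpr hnu
  have h1 : ((Nat.gcd c p : ℕ) : ℤ) = c * Nat.gcdA c p + p * Nat.gcdB c p := Nat.gcd_eq_gcd_ab c p
  rw [hc.gcd_eq_one] at h1
  have h2 : (1 : T) = (c : T) * ((Nat.gcdA c p : ℤ) : T) + (p : T) * ((Nat.gcdB c p : ℤ) : T) := by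
    have := congrArg (Int.cast (R := T)) h1
    push_cast at this
    exact this
  have h3 : (1 : T) ∈ IsLocalRing.maximalIdeal T := by
    rw [h2]
    exact Ideal.add_mem _ (Ideal.mul_mem_right _ _ hcm) (Ideal.mul_mem_right _ _ hp)
  exact (IsLocalRing.maximalIdeal.isMaximal T).ne_top ((Ideal.eq_top_iff_one _).mpr h3)

/-- weak Frobenius density modulo a finite normal level `E`. -/
theorem gunm_exists_frob (E : IntermediateField ℚ Qb) [FiniteDimensional ℚ E] (hE : Normal ℚ E)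
    (g : GQ) (B : Finset ℕ) :
    ∃ ℓ : ℕ, ℓ.Prime ∧ ℓ ∉ B ∧ ∃ A : ValuationSubring Qb, A.LiesOverPrime ℓ ∧
      ∃ φ : GQ, A.IsFrobeniusAt φ ℓ ∧ ∃ b : ℕ, (φ ^ b)⁻¹ * g ∈ E.fixingSubgroup := by
  have halg : Algebra.IsAlgebraic ℚ Qb := AlgebraicClosure.isAlgebraic ℚ
  have hcl : IsAlgClosure ℚ Qb := AlgebraicClosure.instIsAlgClosure ℚ
  have hnorm : Normal ℚ Qb := IsAlgClosure.normal ℚ Qb
  have hgal : IsGalois ℚ Qb := inferInstance
  have hEgal : IsGalois ℚ E := ⟨⟩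
  have hN : E.fixingSubgroup.Normal := (InfiniteGalois.normal_iff_isGalois E).mpr hEgal
  set f : GQ →* GQ ⧸ E.fixingSubgroup := QuotientGroup.mk' E.fixingSubgroup with hf
  have hker : f.ker = E.fixingSubgroup := QuotientGroup.ker_mk' _
  have hopen : IsOpen (f.ker : Set GQ) := by
    rw [hker]
    exact IntermediateField.fixingSubgroup_isOpen E
  obtain ⟨ℓ, hℓ, hℓB, a, hcop, ⟨A, hA, φ, hφ, hfφ⟩, -⟩ :=
    Fermat.Agent.S56.fd_exists_isFrobeniusAt_hom f hopen g B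
  obtain ⟨b, hb⟩ := exists_pow_eq_self_of_coprime hcop
  refine ⟨ℓ, hℓ, hℓB, A, hA, φ, hφ, b, ?_⟩
  rw [← hker, MonoidHom.mem_ker, map_mul, map_inv, map_pow, hfφ, hb, inv_mul_cancel]

/-- linear maps preserve `I • ⊤`. -/
theorem gunm_map_mem_smul_top {T : Type*} [CommRing T] {V : Type*} [AddCommGroup V] [Module T V]
    (I : Ideal T) (g : Module.End T V) {w : V} (hw : w ∈ I • (⊤ : Submodule T V)) :
    g w ∈ I • (⊤ : Submodule T V) := by
  refine Submodule.smul_induction_on hw ?_ ?_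
  · intro a ha v _
    rw [map_smul]
    exact Submodule.smul_mem_smul ha Submodule.mem_top
  · intro x y hx hy
    rw [map_add]
    exact Submodule.add_mem _ hx hy

section Main

variable {p : ℕ} {N : ℕ} [NeZero N] {S : Finset ℕ}
  {𝒪 : Type} [CommRing 𝒪] [IsDomain 𝒪] [IsDiscreteValuationRing 𝒪]
  [IsAdicComplete (IsLocalRing.maximalIdeal 𝒪) 𝒪]
  {θ : CuspForm.heckeAlgebra N 2 (↑S : Set ℕ) →+* IsLocalRing.ResidueField 𝒪}
  {T : Type} [CommRing T] [IsLocalRing T] [IsNoetherianRing T]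
  [IsAdicComplete (IsLocalRing.maximalIdeal T) T] [Algebra 𝒪 T] [IsLocalHom (algebraMap 𝒪 T)]
  [Module.Finite 𝒪 T] [Module.Free 𝒪 T]

/-- continuity: the trace only depends on the class modulo the level `n` subgroup. -/
theorem gunm_trace_congr (ρ : GaloisRepAdic T) (n : ℕ) (L : IntermediateField ℚ Qb)
    (hL : ∀ σ : GQ, (∀ x ∈ L, σ x = x) →
      ∀ v : ρ.V, ρ.ρ σ v - v ∈ (IsLocalRing.maximalIdeal T ^ n) • (⊤ : Submodule T ρ.V))
    (g g' : GQ) (h : ∀ x ∈ L, (g'⁻¹ * g) x = x) :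
    LinearMap.trace T ρ.V (ρ.ρ g) - LinearMap.trace T ρ.V (ρ.ρ g')
      ∈ IsLocalRing.maximalIdeal T ^ n := by
  have hg : g = g' * (g'⁻¹ * g) := by rw [mul_inv_cancel_left]
  have h1 : ρ.ρ g - ρ.ρ g' = ρ.ρ g' * (ρ.ρ (g'⁻¹ * g) - 1) := by
    conv_lhs => rw [hg, map_mul]
    rw [mul_sub, mul_one]
  rw [← map_sub, h1]
  refine gunm_trace_mem _ _ fun v => ?_
  rw [Module.End.mul_apply]
  refine gunm_map_mem_smul_top _ _ ?_
  rw [LinearMap.sub_apply, Module.End.one_apply]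
  exact hL _ h v

/-- the trace of a power of a Frobenius element. -/
theorem gunm_trace_frob_pow (H : CuspForm.HeckeGaloisRepDatum N (↑S : Set ℕ) 𝒪 θ T) {ℓ : ℕ}
    (hℓ : ℓ.Prime) (hℓN : ¬ ℓ ∣ N) (hℓS : ℓ ∉ (↑S : Set ℕ)) (A : ValuationSubring Qb)
    (hA : A.LiesOverPrime ℓ) (φ : GQ) (hφ : A.IsFrobeniusAt φ ℓ) (b : ℕ) :
    LinearMap.trace T H.ρ.V (H.ρ.ρ (φ ^ b))
      = H.π (gunLuc (CuspForm.heckeAlgebra.T hℓ hℓN hℓS) ℓ b) := by
  rw [map_pow, gun_trace_pow (H.ρ.ρ φ) (H.π (CuspForm.heckeAlgebra.T hℓ hℓN hℓS)) (ℓ : ℤ)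
    (by rw [H.charpoly_frob ℓ hℓ hℓN hℓS A hA φ hφ]; simp) b, gunLuc_map]

/-- `(p : T)` lies in the maximal ideal. -/
theorem gunm_p_mem (hp𝒪 : (p : 𝒪) ∈ IsLocalRing.maximalIdeal 𝒪) :
    (p : T) ∈ IsLocalRing.maximalIdeal T := by
  rw [IsLocalRing.mem_maximalIdeal, mem_nonunits_iff]
  intro hu
  have h1 : IsUnit (algebraMap 𝒪 T (p : 𝒪)) := by rwa [map_natCast]
  exact (IsLocalRing.mem_maximalIdeal _).mp hp𝒪 (isUnit_of_map_unit (algebraMap 𝒪 T) _ h1)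

/-- the key estimate: `tr ρ(τ h) ≡ tr ρ(h)` modulo every power of the maximal ideal. -/
theorem gunm_trace_sub_mem (hp : p.Prime)
    (hp𝒪 : (p : 𝒪) ∈ IsLocalRing.maximalIdeal 𝒪) (hpS : p ∈ S)
    (hNS : ∀ q : ℕ, q.Prime → q ∣ N → q ∈ S)
    (H : CuspForm.HeckeGaloisRepDatum N (↑S : Set ℕ) 𝒪 θ T)
    (q : ℕ) (hq : q.Prime) (hqS : q ∉ S) (P : ValuationSubring Qb) (hP : P.LiesOverPrime q)
    (τ : GQ) (hτ : τ ∈ P.inertiaSubgroupIn ℚ) (h : GQ) (n : ℕ) :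
    LinearMap.trace T H.ρ.V (H.ρ.ρ (τ * h)) - LinearMap.trace T H.ρ.V (H.ρ.ρ h)
      ∈ IsLocalRing.maximalIdeal T ^ n := by
  obtain ⟨c, c₁, hc₁, hlat⟩ := gun_lattice N (↑S : Set ℕ) p hp
  set m : ℕ := n + c with hm
  obtain ⟨Θ, hΘinj, hΘ⟩ := gun_theta N (p ^ m) (pow_pos hp.pos m)
  obtain ⟨E₀, hE₀fd, hE₀n, hD⟩ := gun_hecke_congr N p hp m Θ hΘinj hΘ
  obtain ⟨L, hLfd, hL⟩ := H.ρ.isAdicContinuous n
  have hcl : IsAlgClosure ℚ Qb := AlgebraicClosure.instIsAlgClosure ℚ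
  have hnorm : Normal ℚ Qb := IsAlgClosure.normal ℚ Qb
  have hfd0 : FiniteDimensional ℚ (E₀ ⊔ L : IntermediateField ℚ Qb) :=
    IntermediateField.finiteDimensional_sup E₀ L
  set E : IntermediateField ℚ Qb :=
    IntermediateField.normalClosure ℚ (E₀ ⊔ L : IntermediateField ℚ Qb) Qb with hEdef
  have hEfd : FiniteDimensional ℚ E := normalClosure.is_finiteDimensional ℚ _ Qb
  have hEn : Normal ℚ E := normalClosure.normal ℚ _ Qb
  have hsupE : (E₀ ⊔ L : IntermediateField ℚ Qb) ≤ E := IntermediateField.le_normalClosure _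
  have hE₀E : E₀ ≤ E := le_trans le_sup_left hsupE
  have hLE : L ≤ E := le_trans le_sup_right hsupE
  have hfix₀ : ∀ σ : GQ, σ ∈ E.fixingSubgroup → σ ∈ E₀.fixingSubgroup := by
    intro σ hσ
    rw [IntermediateField.mem_fixingSubgroup_iff] at hσ ⊢
    exact fun x hx => hσ x (hE₀E hx)
  have hfixL : ∀ σ : GQ, σ ∈ E.fixingSubgroup → ∀ x ∈ L, σ x = x := by
    intro σ hσ x hx
    rw [IntermediateField.mem_fixingSubgroup_iff] at hσ
    exact hσ x (hLE hx)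
  obtain ⟨ℓ, hℓ, hℓS, A, hA, φ, hφ, b, hb⟩ := gunm_exists_frob E hEn (τ * h) S
  obtain ⟨ℓ', hℓ', hℓ'S, A', hA', φ', hφ', b', hb'⟩ := gunm_exists_frob E hEn h S
  have hℓN : ¬ ℓ ∣ N := fun hd => hℓS (hNS ℓ hℓ hd)
  have hℓ'N : ¬ ℓ' ∣ N := fun hd => hℓ'S (hNS ℓ' hℓ' hd)
  have hℓp : ℓ ≠ p := fun e => hℓS (e ▸ hpS)
  have hℓ'p : ℓ' ≠ p := fun e => hℓ'S (e ▸ hpS)
  have hqN : ¬ q ∣ N := fun hd => hqS (hNS q hq hd)
  have hqp : q ≠ p := fun e => hqS (e ▸ hpS)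
  have hℓS' : ℓ ∉ (↑S : Set ℕ) := fun hh => hℓS (Finset.mem_coe.mp hh)
  have hℓ'S' : ℓ' ∉ (↑S : Set ℕ) := fun hh => hℓ'S (Finset.mem_coe.mp hh)
  -- continuity
  have key1 := gunm_trace_congr H.ρ n L hL (τ * h) (φ ^ b) (hfixL _ hb)
  have key2 := gunm_trace_congr H.ρ n L hL h (φ' ^ b') (hfixL _ hb')
  -- the lattice estimate
  have key3 : LinearMap.trace T H.ρ.V (H.ρ.ρ (φ ^ b)) - LinearMap.trace T H.ρ.V (H.ρ.ρ (φ' ^ b'))
      ∈ IsLocalRing.maximalIdeal T ^ n := by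
    rw [gunm_trace_frob_pow H hℓ hℓN hℓS' A hA φ hφ b,
      gunm_trace_frob_pow H hℓ' hℓ'N hℓ'S' A' hA' φ' hφ' b', ← map_sub]
    set x : CuspForm.heckeAlgebra N 2 (↑S : Set ℕ) :=
      gunLuc (CuspForm.heckeAlgebra.T hℓ hℓN hℓS') ℓ b
        - gunLuc (CuspForm.heckeAlgebra.T hℓ' hℓ'N hℓ'S') ℓ' b' with hx
    set e : AddMonoid.End (s16lbAb N) :=
      gunLuc (R := AddMonoid.End (s16lbAb N)) (gprT N ℓ) ℓ b
        - gunLuc (R := AddMonoid.End (s16lbAb N)) (gprT N ℓ') ℓ' b' with he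
    have hcorr : GunCorr N (x : Module.End ℂ (CuspForm (Gamma0 N) 2)) e := by
      have hval : ∀ (t : CuspForm.heckeAlgebra N 2 (↑S : Set ℕ)) (d : ℤ) (k : ℕ),
          ((gunLuc t d k : CuspForm.heckeAlgebra N 2 (↑S : Set ℕ)) :
            Module.End ℂ (CuspForm (Gamma0 N) 2))
          = gunLuc (t : Module.End ℂ (CuspForm (Gamma0 N) 2)) d k := fun t d k =>
        gunLuc_map (CuspForm.heckeAlgebra N 2 (↑S : Set ℕ)).val.toRingHom t d k
      have hxc : (x : Module.End ℂ (CuspForm (Gamma0 N) 2))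
          = gunLuc (CuspForm.heckeTLin 2 hℓ hℓN) ℓ b - gunLuc (CuspForm.heckeTLin 2 hℓ' hℓ'N) ℓ' b' := by
        rw [hx, AddSubgroupClass.coe_sub, hval, hval, CuspForm.heckeAlgebra.coe_T,
          CuspForm.heckeAlgebra.coe_T]
      rw [hxc, he]
      exact gunCorr_sub (gunCorr_luc (gunCorr_T hℓ hℓN) ℓ b) (gunCorr_luc (gunCorr_T hℓ' hℓ'N) ℓ' b')
    have hzero : ∀ χ ∈ gprHomPE N (ZMod (p ^ m)), χ.comp e = 0 := by
      intro χ hχ
      have h1 := hD ℓ ℓ' hℓ hℓ' hℓN hℓ'N hℓp hℓ'p A A' hA hA' φ φ' hφ hφ' q hq hqN hqp P hP τ hτ h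
        b b' (hfix₀ _ hb) (hfix₀ _ hb') χ hχ
      refine AddMonoidHom.ext fun γ => ?_
      have h2 := DFunLike.congr_fun h1 γ
      change χ (e γ) = 0
      rw [he]
      change χ (gunLuc (R := AddMonoid.End (s16lbAb N)) (gprT N ℓ) ℓ b γ
        - gunLuc (R := AddMonoid.End (s16lbAb N)) (gprT N ℓ') ℓ' b' γ) = 0
      rw [map_sub, sub_eq_zero]
      exact h2
    obtain ⟨w, hw⟩ := hlat m x e hcorr hzero
    have hmc : m - c = n := by omega
    rw [hmc] at hw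
    have h3 := congrArg H.π hw
    rw [map_nsmul, map_nsmul, nsmul_eq_mul, nsmul_eq_mul] at h3
    obtain ⟨u, hu⟩ := gunm_isUnit_natCast (T := T) (gunm_p_mem hp𝒪) hc₁
    have h4 : H.π x = (↑u⁻¹ : T) * (((p ^ n : ℕ) : T) * H.π w) := by
      rw [← h3, ← mul_assoc, ← hu, Units.inv_mul, one_mul]
    rw [h4]
    refine Ideal.mul_mem_left _ _ (Ideal.mul_mem_right _ _ ?_)
    rw [Nat.cast_pow]
    exact Ideal.pow_mem_pow (gunm_p_mem hp𝒪) n
  have hsum : LinearMap.trace T H.ρ.V (H.ρ.ρ (τ * h)) - LinearMap.trace T H.ρ.V (H.ρ.ρ h)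
      = (LinearMap.trace T H.ρ.V (H.ρ.ρ (τ * h)) - LinearMap.trace T H.ρ.V (H.ρ.ρ (φ ^ b)))
        + (LinearMap.trace T H.ρ.V (H.ρ.ρ (φ ^ b)) - LinearMap.trace T H.ρ.V (H.ρ.ρ (φ' ^ b')))
        - (LinearMap.trace T H.ρ.V (H.ρ.ρ h) - LinearMap.trace T H.ρ.V (H.ρ.ρ (φ' ^ b'))) := by
    ring
  rw [hsum]
  exact Ideal.sub_mem _ (Ideal.add_mem _ key1 key3) key2

/-- **S31**: the representation of a Hecke–Galois datum is unramified outside `S`. -/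
theorem gun_main (hp : p.Prime)
    (hp𝒪 : (p : 𝒪) ∈ IsLocalRing.maximalIdeal 𝒪) (hpS : p ∈ S)
    (hNS : ∀ q : ℕ, q.Prime → q ∣ N → q ∈ S)
    (H : CuspForm.HeckeGaloisRepDatum N (↑S : Set ℕ) 𝒪 θ T)
    (q : ℕ) (hq : q.Prime) (hqS : q ∉ S) :
    H.ρ.IsUnramifiedAt q := by
  intro P hP τ hτ
  refine gun_eq_one_of_trace H.ρ H.residual_absIrr τ fun g => ?_
  rw [← sub_eq_zero]
  have hbot := Ideal.iInf_pow_eq_bot_of_isLocalRing (IsLocalRing.maximalIdeal T)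
    Ideal.IsPrime.ne_top'
  have hmem : LinearMap.trace T H.ρ.V (H.ρ.ρ (τ * g)) - LinearMap.trace T H.ρ.V (H.ρ.ρ g)
      ∈ ⨅ n : ℕ, IsLocalRing.maximalIdeal T ^ n :=
    Ideal.mem_iInf.mpr fun n => gunm_trace_sub_mem hp hp𝒪 hpS hNS H q hq hqS P hP τ hτ g n
  rw [hbot] at hmem
  exact hmem

end Main

end Fermat.Agent.G
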